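import Fermat.Agent.MF.CosetCount
import Mathlib.Data.Finset.NatDivisors
import Mathlib.Data.Nat.Factorization.Induction

/-!
# The index of `Γ₀(N)` is the Dedekind psi function

`card_cosetX` and `index_Gamma0`, the degree of `X₀(N)` over the `j`-line in `MC/X0/Field` and the
index in the Sturm bounds (`SmallLevel`).
-/

namespace Fermat.MF

open CongruenceSubgroup

/-- A sum over the divisors of a coprime product is a double sum. -/
theorem sum_divisors_coprime_mul {m n : ℕ} (hmn : m.Coprime n) (f : ℕ → ℕ) :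
    ∑ d ∈ (m * n).divisors, f d = ∑ a ∈ m.divisors, ∑ b ∈ n.divisors, f (a * b) := by
  rw [Nat.divisors_mul, Finset.mul_def, Finset.sum_image hmn.mul_injOn_divisors,
    Finset.sum_product]

/-- The sum counting the points of `P¹(ℤ/N)` by the gcd of the second coordinate with `N`. -/
def projLineSum (N : ℕ) : ℕ :=
  ∑ d ∈ N.divisors, N / d / Nat.gcd d (N / d) * Nat.totient (Nat.gcd d (N / d))

/-- The gcd is multiplicative across coprime factors. -/
theorem gcd_mul_mul {m n a b a' b' : ℕ} (h : m.Coprime n) (ha : a ∣ m) (ha' : a' ∣ m)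
    (hb : b ∣ n) (hb' : b' ∣ n) : Nat.gcd (a * b) (a' * b') = Nat.gcd a a' * Nat.gcd b b' := by
  have hab : a.Coprime b := (h.coprime_dvd_left ha).coprime_dvd_right hb
  have h1 : a.Coprime b' := (h.coprime_dvd_left ha).coprime_dvd_right hb'
  have h2 : b.Coprime a' := ((h.coprime_dvd_left ha').coprime_dvd_right hb).symm
  rw [Nat.gcd_comm (a * b), Nat.Coprime.gcd_mul _ hab, Nat.gcd_comm _ a, Nat.gcd_comm _ b,
    h1.symm.gcd_mul_right_cancel_right a', h2.symm.gcd_mul_left_cancel_right b']

/-- `projLineSum` is multiplicative. -/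
theorem projLineSum_mul {m n : ℕ} (h : m.Coprime n) :
    projLineSum (m * n) = projLineSum m * projLineSum n := by
  simp only [projLineSum, sum_divisors_coprime_mul h, Finset.sum_mul_sum]
  refine Finset.sum_congr rfl fun a ha => Finset.sum_congr rfl fun b hb => ?_
  have ha' := Nat.dvd_of_mem_divisors ha
  have hb' := Nat.dvd_of_mem_divisors hb
  have hg : (Nat.gcd a (m / a)).Coprime (Nat.gcd b (n / b)) :=
    (h.coprime_dvd_left ((Nat.gcd_dvd_left _ _).trans ha')).coprime_dvd_right
      ((Nat.gcd_dvd_left _ _).trans hb')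
  rw [Nat.mul_div_mul_comm ha' hb',
    gcd_mul_mul h ha' (Nat.div_dvd_of_dvd ha') hb' (Nat.div_dvd_of_dvd hb'),
    Nat.totient_mul hg, ← Nat.div_mul_div_comm (Nat.gcd_dvd_right _ _) (Nat.gcd_dvd_right _ _)]
  ring

/-- The Dedekind psi function is multiplicative. -/
theorem dedekindPsi_mul {m n : ℕ} (h : m.Coprime n) :
    ModularCurve.dedekindPsi (m * n)
      = ModularCurve.dedekindPsi m * ModularCurve.dedekindPsi n := by
  simp only [ModularCurve.dedekindPsi, Finset.sum_filter, sum_divisors_coprime_mul h,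
    Finset.sum_mul_sum]
  refine Finset.sum_congr rfl fun a ha => Finset.sum_congr rfl fun b hb => ?_
  have ha' := Nat.dvd_of_mem_divisors ha
  have hb' := Nat.dvd_of_mem_divisors hb
  have hab : a.Coprime b := (h.coprime_dvd_left ha').coprime_dvd_right hb'
  simp only [Nat.squarefree_mul hab, Nat.mul_div_mul_comm ha' hb']
  by_cases h1 : Squarefree a <;> by_cases h2 : Squarefree b <;> simp [h1, h2]

/-- `ψ(p ^ (k + 1)) = p ^ (k + 1) + p ^ k`. -/
theorem dedekindPsi_prime_pow {p : ℕ} (hp : p.Prime) (k : ℕ) :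
    ModularCurve.dedekindPsi (p ^ (k + 1)) = p ^ (k + 1) + p ^ k := by
  rw [ModularCurve.dedekindPsi, Finset.sum_filter, Nat.divisors_prime_pow hp, Finset.sum_map]
  simp only [Function.Embedding.coeFn_mk]
  rw [Finset.sum_range_succ', Finset.sum_range_succ']
  rw [Finset.sum_eq_zero fun i _ => if_neg fun h => by
    have := (Nat.squarefree_pow_iff hp.ne_one (by omega)).mp h
    omega]
  simp [hp.squarefree]
  rw [Nat.pow_succ, Nat.mul_div_cancel _ hp.pos]
  ring

/-- The telescoping sum of the divisor terms of a prime power. -/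
theorem sum_range_gcd_totient_prime_pow {p : ℕ} (hp : p.Prime) (k : ℕ) :
    ∀ j, j ≤ k → ∑ i ∈ Finset.range j,
        (p ^ (k + 1) / p ^ (i + 1) / Nat.gcd (p ^ (i + 1)) (p ^ (k + 1) / p ^ (i + 1))
          * Nat.totient (Nat.gcd (p ^ (i + 1)) (p ^ (k + 1) / p ^ (i + 1)))) +
            p ^ (k - j) = p ^ k := by
  intro j
  induction j with
  | zero => simp
  | succ j ih =>
    intro hj
    rw [Finset.sum_range_succ]
    have hterm : p ^ (k + 1) / p ^ (j + 1) / Nat.gcd (p ^ (j + 1)) (p ^ (k + 1) / p ^ (j + 1))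
          * Nat.totient (Nat.gcd (p ^ (j + 1)) (p ^ (k + 1) / p ^ (j + 1)))
        + p ^ (k - (j + 1)) = p ^ (k - j) := by
      rw [Nat.pow_div (by omega) hp.pos]
      have hg : Nat.gcd (p ^ (j + 1)) (p ^ (k + 1 - (j + 1))) = p ^ (min (j + 1) (k - j)) := by
        rw [show k + 1 - (j + 1) = k - j by omega]
        rcases le_total (j + 1) (k - j) with hle | hle
        · rw [min_eq_left hle, Nat.gcd_eq_left (pow_dvd_pow p hle)]
        · rw [min_eq_right hle, Nat.gcd_eq_right (pow_dvd_pow p hle)]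
      rw [hg, Nat.pow_div (by omega) hp.pos]
      obtain ⟨m, hm⟩ : ∃ m, min (j + 1) (k - j) = m + 1 := ⟨min j (k - j - 1), by omega⟩
      rw [hm, Nat.totient_prime_pow_succ hp, ← mul_assoc, ← pow_add,
        show k + 1 - (j + 1) - (m + 1) + m = k - j - 1 by omega,
        show k - (j + 1) = k - j - 1 by omega]
      obtain ⟨r, hr⟩ : ∃ r, k - j = r + 1 := ⟨k - j - 1, by omega⟩
      rw [hr, Nat.add_sub_cancel, pow_succ]
      rw [Nat.mul_sub, mul_one, Nat.sub_add_cancel (Nat.le_mul_of_pos_right _ hp.pos)]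
    have := ih (by omega)
    omega

/-- `projLineSum` agrees with `ψ` on prime powers. -/
theorem projLineSum_prime_pow {p : ℕ} (hp : p.Prime) (k : ℕ) :
    projLineSum (p ^ (k + 1)) = p ^ (k + 1) + p ^ k := by
  rw [projLineSum, Nat.divisors_prime_pow hp, Finset.sum_map]
  simp only [Function.Embedding.coeFn_mk]
  rw [Finset.sum_range_succ', Finset.sum_range_succ]
  have h := sum_range_gcd_totient_prime_pow hp k k le_rfl
  rw [Nat.sub_self, pow_zero] at h
  have hlast : p ^ (k + 1) / p ^ (k + 1) / Nat.gcd (p ^ (k + 1)) (p ^ (k + 1) / p ^ (k + 1))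
      * Nat.totient (Nat.gcd (p ^ (k + 1)) (p ^ (k + 1) / p ^ (k + 1))) = 1 := by
    simp [Nat.div_self (pow_pos hp.pos _)]
  have hfirst : p ^ (k + 1) / p ^ 0 / Nat.gcd (p ^ 0) (p ^ (k + 1) / p ^ 0)
      * Nat.totient (Nat.gcd (p ^ 0) (p ^ (k + 1) / p ^ 0)) = p ^ (k + 1) := by
    simp
  omega

/-- `projLineSum` is the Dedekind psi function. -/
theorem projLineSum_eq_dedekindPsi (N : ℕ) : projLineSum N = ModularCurve.dedekindPsi N := by
  induction N using Nat.recOnPosPrimePosCoprime with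
  | prime_pow p n hp hn =>
    obtain ⟨k, rfl⟩ := Nat.exists_eq_succ_of_ne_zero hn.ne'
    rw [projLineSum_prime_pow hp, dedekindPsi_prime_pow hp]
  | zero => simp [projLineSum, ModularCurve.dedekindPsi]
  | one => simp [projLineSum, ModularCurve.dedekindPsi_one]
  | coprime a b _ _ hab ha hb => rw [projLineSum_mul hab, dedekindPsi_mul hab, ha, hb]

/-- The index of `Γ₀(N)` in `SL(2, ℤ)`. -/
theorem card_cosetX (N : ℕ) [NeZero N] :
    Nat.card (CosetX N) = ModularCurve.dedekindPsi N := by
  rw [card_cosetX_eq_sum]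
  exact projLineSum_eq_dedekindPsi N

/-- The index of `Γ₀(N)` is `ψ(N)`. -/
theorem index_Gamma0 (N : ℕ) [NeZero N] :
    (Gamma0 N).index = ModularCurve.dedekindPsi N := card_cosetX N

end Fermat.MF
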