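import Mathlib.Analysis.Complex.HasPrimitives
import Mathlib.NumberTheory.ModularForms.QExpansion
import Mathlib.NumberTheory.ModularForms.CongruenceSubgroups
import Mathlib.NumberTheory.Modular
import Mathlib.Analysis.Calculus.Deriv.Star

/-!
# Primitives of weight two cusp forms

Every weight two cusp form for `Γ₀(N)` has a primitive on `ℍ` which vanishes at `i∞`; it is
equivariant, has a limit at every cusp and is periodic of period `N` after each translation.

They carry the periods of `PeriodInjective`, the symbols of forms in `HM/FormSymbol` and the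
constant terms in `Eisen/Eisenstein`.
-/

namespace Fermat.MF

open UpperHalfPlane CongruenceSubgroup Filter Topology Function
open scoped MatrixGroups ModularForm Manifold ComplexConjugate

/-- `K` is a primitive of `g` on the upper half plane. -/
def HasPrim (g K : ℍ → ℂ) : Prop :=
  ∀ τ : ℍ, HasDerivAt (K ∘ ofComplex) (g τ) (τ : ℂ)

namespace HasPrim

variable {g g' K K' : ℍ → ℂ}

/-- Primitives add. -/
theorem add (h : HasPrim g K) (h' : HasPrim g' K') : HasPrim (g + g') (K + K') :=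
  fun τ => (h τ).add (h' τ)

/-- Primitives subtract. -/
theorem sub (h : HasPrim g K) (h' : HasPrim g' K') : HasPrim (g - g') (K - K') :=
  fun τ => (h τ).sub (h' τ)

/-- Primitives scale. -/
theorem const_smul (h : HasPrim g K) (c : ℂ) : HasPrim (c • g) (c • K) :=
  fun τ => (h τ).const_mul c

/-- A primitive is holomorphic. -/
theorem mdifferentiable (h : HasPrim g K) : MDiff K :=
  UpperHalfPlane.mdifferentiable_iff.mpr fun z hz =>
    ((h ⟨z, hz⟩).differentiableAt).differentiableWithinAt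

/-- A primitive of zero is constant. -/
theorem isConst (h : HasPrim 0 K) (z w : ℍ) : K z = K w := by
  have hd : DifferentiableOn ℂ (K ∘ ofComplex) {z : ℂ | 0 < z.im} :=
    fun z hz => ((h ⟨z, hz⟩).differentiableAt).differentiableWithinAt
  have hd' : Set.EqOn (deriv (K ∘ ofComplex)) 0 {z : ℂ | 0 < z.im} :=
    fun z hz => (h ⟨z, hz⟩).deriv
  have := isOpen_upperHalfPlaneSet.is_const_of_deriv_eq_zero
    (convex_halfSpace_im_gt 0).isPreconnected hd hd' (x := (z : ℂ)) (y := (w : ℂ))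
    z.im_pos w.im_pos
  simpa using this

/-- Two primitives differ by a constant. -/
theorem exists_eq_add (h : HasPrim g K) (h' : HasPrim g K') : ∃ c, ∀ z, K' z = K z + c := by
  have h0 : HasPrim 0 (K' - K) := by simpa using h'.sub h
  refine ⟨K' UpperHalfPlane.I - K UpperHalfPlane.I, fun z => ?_⟩
  have := h0.isConst z UpperHalfPlane.I
  simp only [Pi.sub_apply] at this
  linear_combination this

/-- Primitives are compatible with translates. -/
theorem slash (h : HasPrim g K) (δ : SL(2, ℤ)) :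
    HasPrim (g ∣[(2 : ℤ)] δ) (fun z => K (δ • z)) := by
  intro τ
  have hdet : (δ : GL (Fin 2) ℝ).val.det = 1 := by
    rw [← Matrix.GeneralLinearGroup.val_det_apply]; simp
  have hpos : 0 < (δ : GL (Fin 2) ℝ).val.det := by rw [hdet]; exact one_pos
  have h1 : HasDerivAt (fun w ↦ ↑((δ : GL (Fin 2) ℝ) • ofComplex w) : ℂ → ℂ)
      (((δ : GL (Fin 2) ℝ).val.det : ℂ) / denom (δ : GL (Fin 2) ℝ) τ ^ 2) ↑τ :=
    (UpperHalfPlane.hasStrictDerivAt_smul hpos τ).hasDerivAt
  have h2 := (h (δ • τ))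
  have h3 : HasDerivAt (K ∘ ofComplex) (g (δ • τ))
      ((fun w ↦ ↑((δ : GL (Fin 2) ℝ) • ofComplex w) : ℂ → ℂ) τ) := by
    have heq : ((fun w ↦ ↑((δ : GL (Fin 2) ℝ) • ofComplex w) : ℂ → ℂ) τ) = ((δ • τ : ℍ) : ℂ) := by
      simp only [ofComplex_apply]; rfl
    rw [heq]; exact h2
  have h4 := h3.comp (τ : ℂ) h1
  rw [hdet] at h4
  have hval : g (δ • τ) * (((1 : ℝ) : ℂ) / denom (δ : GL (Fin 2) ℝ) τ ^ 2)
      = (g ∣[(2 : ℤ)] δ) τ := by
    rw [ModularForm.SL_slash_apply, zpow_neg, zpow_two]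
    push_cast
    ring
  rw [hval] at h4
  refine h4.congr_of_eventuallyEq (Filter.Eventually.of_forall fun w => ?_)
  simp only [Function.comp_apply, ofComplex_apply]
  rfl

end HasPrim

/-- A function on `ℍ` invariant under translation by `h` is periodic on `ℂ`. -/
theorem periodic_comp_ofComplex {f : ℍ → ℂ} {h : ℝ}
    (hf : ∀ z : ℍ, f (h +ᵥ z) = f z) : Function.Periodic (f ∘ ofComplex) h := by
  intro w
  by_cases hw : 0 < w.im
  · have hw' : 0 < (w + h).im := by simpa using hw
    simp only [Function.comp_apply, ofComplex_apply_of_im_pos hw', ofComplex_apply_of_im_pos hw]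
    rw [← hf ⟨w, hw⟩]
    congr 1
    ext
    simp [add_comm]
  · have h1 : w.im ≤ 0 := not_lt.mp hw
    have h2 : (w + h).im ≤ 0 := by simpa using h1
    simp [ofComplex_apply_of_im_nonpos h1, ofComplex_apply_of_im_nonpos h2]

/-- A periodic holomorphic function vanishing at `i∞` has a periodic primitive vanishing at `i∞`. -/
theorem exists_periodic_prim {g : ℍ → ℂ} {h : ℝ} (hh : 0 < h)
    (hper : Function.Periodic (g ∘ ofComplex) h) (hg : MDiff g) (hz : IsZeroAtImInfty g) :
    ∃ K : ℍ → ℂ, HasPrim g K ∧ (∀ z : ℍ, K (h +ᵥ z) = K z) ∧ Tendsto K atImInfty (𝓝 0) := by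
  -- `g` is `φ q` with `φ` holomorphic on the disc and zero at `0`
  set φ := cuspFunction h g
  have hφ : DifferentiableOn ℂ φ (Metric.ball 0 1) :=
    differentiableOn_cuspFunction_ball hh hper hg hz.isBoundedAtImInfty
  have hφ0 : φ 0 = 0 := by
    change cuspFunction h g 0 = 0
    rw [cuspFunction_apply_zero hh
      (analyticAt_cuspFunction_zero hh hper hg hz.isBoundedAtImInfty) hper,
      hz.valueAtInfty_eq_zero]
  -- `h / (2 π i) * φ q / q` has a primitive `Ψ` vanishing at `0`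
  have hψ : DifferentiableOn ℂ (fun q => (h / (2 * Real.pi * Complex.I) : ℂ) * dslope φ 0 q)
      (Metric.ball 0 1) :=
    ((Complex.differentiableOn_dslope (Metric.ball_mem_nhds 0 one_pos)).mpr hφ).const_mul _
  obtain ⟨Ψ, hΨ0, hΨ⟩ := hψ.isExactOn_ball.with_val_at (0 : ℂ) 0
  refine ⟨fun z => Ψ (Function.Periodic.qParam h z), fun τ => ?_, fun z => ?_, ?_⟩
  -- by the chain rule `Ψ q` is a primitive of `g`
  · set q := Function.Periodic.qParam h (τ : ℂ) with hq
    have hq1 : ‖q‖ < 1 := Function.Periodic.norm_qParam_lt_one hh τ.im_pos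
    have hqd : HasDerivAt (Function.Periodic.qParam h) (2 * Real.pi * Complex.I / h * q)
        (τ : ℂ) := by
      have : HasDerivAt (fun z : ℂ => 2 * Real.pi * Complex.I * z / h) (2 * Real.pi * Complex.I / h)
          (τ : ℂ) := by
        simpa using ((hasDerivAt_id (τ : ℂ)).const_mul (2 * Real.pi * Complex.I)).div_const (h : ℂ)
      simpa [show Function.Periodic.qParam h = fun z : ℂ =>
        Complex.exp (2 * Real.pi * Complex.I * z / h) from rfl, hq, mul_comm] using this.cexp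
    have hmain := (hΨ q (mem_ball_zero_iff.mpr hq1)).comp (τ : ℂ) hqd
    have hq0 : q ≠ 0 := Function.Periodic.qParam_ne_zero _
    have hgq : g τ = φ q := (eq_cuspFunction τ hh.ne' hper).symm
    have hval : (h / (2 * Real.pi * Complex.I) : ℂ) * dslope φ 0 q *
        (2 * Real.pi * Complex.I / h * q) = g τ := by
      rw [hgq, dslope_of_ne _ hq0, slope_def_field, hφ0]
      have : (h : ℂ) ≠ 0 := by exact_mod_cast hh.ne'
      have : (2 * Real.pi * Complex.I : ℂ) ≠ 0 := Complex.two_pi_I_ne_zero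
      field_simp
      ring
    rw [hval] at hmain
    refine hmain.congr_of_eventuallyEq ?_
    filter_upwards [isOpen_upperHalfPlaneSet.mem_nhds τ.im_pos] with w hw
    simp [Function.comp_apply, ofComplex_apply_of_im_pos hw]
  -- it is periodic as `q` is
  · change Ψ _ = Ψ _
    refine congrArg Ψ ?_
    have : ((h +ᵥ z : ℍ) : ℂ) = (z : ℂ) + h := by simp [add_comm]
    rw [this]
    simp only [Function.Periodic.qParam]
    rw [mul_add, add_div, Complex.exp_add]
    have : (h : ℂ) ≠ 0 := by exact_mod_cast hh.ne'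
    rw [mul_div_assoc, mul_div_assoc, div_self this, mul_one, Complex.exp_two_pi_mul_I, mul_one]
  -- and tends to `Ψ 0 = 0` at infinity
  · have hc : ContinuousAt Ψ 0 := (hΨ 0 (Metric.mem_ball_self one_pos)).continuousAt
    have := hc.tendsto.comp (qParam_tendsto_atImInfty hh)
    rwa [hΨ0] at this

/-- `T ^ n` acts as the translation by `n`. -/
theorem T_pow_smul (n : ℕ) (z : ℍ) : (ModularGroup.T ^ n) • z = (n : ℝ) +ᵥ z := by
  ext1
  rw [← zpow_natCast, ModularGroup.coe_T_zpow_smul_eq]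
  simp [add_comm]

variable {N : ℕ}

/-- The conjugates of `T ^ N` lie in `Γ₀(N)`. -/
theorem conj_T_pow_mem_Gamma0 (δ : SL(2, ℤ)) :
    δ * ModularGroup.T ^ N * δ⁻¹ ∈ Gamma0 N := by
  have h : ModularGroup.T ^ N ∈ Gamma N := by
    simpa using ModularGroup_T_pow_mem_Gamma N N dvd_rfl
  have h' := (Gamma_normal (N := N)).conj_mem _ h δ
  rw [Gamma_mem] at h'
  exact Gamma0_mem.mpr h'.2.2.1

variable [NeZero N]

omit [NeZero N] in
/-- A form of level `N` is invariant under `Γ₀(N)`. -/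
theorem slash_of_mem_Gamma0 (f : CuspForm (Gamma0 N) 2) {γ : SL(2, ℤ)} (hγ : γ ∈ Gamma0 N) :
    (⇑f ∣[(2 : ℤ)] γ) = ⇑f := by
  rw [ModularForm.SL_slash]
  exact SlashInvariantFormClass.slash_action_eq f _ ⟨γ, hγ, rfl⟩

omit [NeZero N] in
/-- A translate of a form of a level containing `Γ(M)` has period `M`. -/
theorem slash_periodic_of_le {Γ : Subgroup SL(2, ℤ)} {M : ℕ} (hM : Gamma M ≤ Γ)
    (f : CuspForm Γ 2) (δ : SL(2, ℤ)) :
    Function.Periodic ((⇑f ∣[(2 : ℤ)] δ) ∘ ofComplex) ((M : ℝ) : ℂ) := by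
  refine periodic_comp_ofComplex fun z => ?_
  have hmem : δ * ModularGroup.T ^ M * δ⁻¹ ∈ Γ := hM ((Gamma_normal (N := M)).conj_mem _
    (by simpa using ModularGroup_T_pow_mem_Gamma M M dvd_rfl) δ)
  have hinv : (⇑f ∣[(2 : ℤ)] (δ * ModularGroup.T ^ M * δ⁻¹)) = ⇑f := by
    rw [ModularForm.SL_slash]
    exact SlashInvariantFormClass.slash_action_eq f _ ⟨_, hmem, rfl⟩
  have h : ((⇑f ∣[(2 : ℤ)] δ) ∣[(2 : ℤ)] (ModularGroup.T ^ M)) = (⇑f ∣[(2 : ℤ)] δ) := by
    rw [← SlashAction.slash_mul,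
      show δ * ModularGroup.T ^ M = (δ * ModularGroup.T ^ M * δ⁻¹) * δ by group,
      SlashAction.slash_mul, hinv]
  have h' := congrFun h z
  rw [ModularForm.SL_slash_apply, T_pow_smul] at h'
  have hden : denom (((ModularGroup.T ^ M : SL(2, ℤ))) : GL (Fin 2) ℝ) z = 1 := by
    have e : ((ModularGroup.T ^ M : SL(2, ℤ)) : Matrix (Fin 2) (Fin 2) ℤ) =
        !![1, (M : ℤ); 0, 1] := by
      rw [← zpow_natCast, ModularGroup.coe_T_zpow]
    rw [denom]
    simp [e, -map_pow]
  rw [hden] at h'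
  simpa using h'

omit [NeZero N] in
/-- A translate of a form of level `N` has period `N`. -/
theorem slash_periodic (f : CuspForm (Gamma0 N) 2) (δ : SL(2, ℤ)) :
    Function.Periodic ((⇑f ∣[(2 : ℤ)] δ) ∘ ofComplex) ((N : ℝ) : ℂ) :=
  slash_periodic_of_le (fun _ hg => Gamma0_mem.mpr (Gamma_mem.mp hg).2.2.1) f δ

omit [NeZero N] in
/-- A translate of a cusp form is holomorphic. -/
theorem slash_mdifferentiable (f : CuspForm (Gamma0 N) 2) (δ : SL(2, ℤ)) :
    MDiff (⇑f ∣[(2 : ℤ)] δ) := by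
  rw [ModularForm.SL_slash]
  exact MDifferentiable.slash (CuspFormClass.holo f) _ _

/-- The primitive of a weight two cusp form vanishing at `i∞`. -/
theorem exists_cuspPrim (f : CuspForm (Gamma0 N) 2) :
    ∃ F : ℍ → ℂ, HasPrim f F ∧ Tendsto F atImInfty (𝓝 0) := by
  obtain ⟨K, h1, -, h3⟩ := exists_periodic_prim (Nat.cast_pos.mpr (NeZero.pos N))
    (slash_periodic f 1) (slash_mdifferentiable f 1) (CuspFormClass.zero_at_infty_slash f 1)
  rw [SlashAction.slash_one] at h1
  exact ⟨K, h1, h3⟩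

/-- The primitive of a weight two cusp form vanishing at `i∞`. -/
noncomputable def cuspPrim (f : CuspForm (Gamma0 N) 2) : ℍ → ℂ :=
  (exists_cuspPrim f).choose

/-- `cuspPrim f` is a primitive of `f`. -/
theorem hasPrim_cuspPrim (f : CuspForm (Gamma0 N) 2) : HasPrim f (cuspPrim f) :=
  (exists_cuspPrim f).choose_spec.1

/-- `cuspPrim f` tends to zero at `i∞`. -/
theorem tendsto_cuspPrim (f : CuspForm (Gamma0 N) 2) :
    Tendsto (cuspPrim f) atImInfty (𝓝 0) :=
  (exists_cuspPrim f).choose_spec.2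

/-- `cuspPrim f` is the only primitive of `f` tending to zero at `i∞`. -/
theorem eq_cuspPrim {f : CuspForm (Gamma0 N) 2} {F : ℍ → ℂ} (hF : HasPrim f F)
    (hF0 : Tendsto F atImInfty (𝓝 0)) : F = cuspPrim f := by
  obtain ⟨c, hc⟩ := (hasPrim_cuspPrim f).exists_eq_add hF
  have h : Tendsto (fun z => cuspPrim f z + c) atImInfty (𝓝 (0 + c)) :=
    (tendsto_cuspPrim f).add_const c
  rw [← funext hc] at h
  have := tendsto_nhds_unique hF0 h
  funext z
  rw [hc z]
  linear_combination -this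

/-- Every translate of `cuspPrim f` has period `N` and a limit at `i∞`. -/
theorem cuspPrim_smul_structure (f : CuspForm (Gamma0 N) 2) (δ : SL(2, ℤ)) :
    (∀ z : ℍ, cuspPrim f (δ • ((N : ℝ) +ᵥ z)) = cuspPrim f (δ • z)) ∧
      ∃ L, Tendsto (fun w : ℍ => cuspPrim f (δ • w)) atImInfty (𝓝 L) := by
  obtain ⟨K, h1, h2, h3⟩ := exists_periodic_prim (Nat.cast_pos.mpr (NeZero.pos N))
    (slash_periodic f δ) (slash_mdifferentiable f δ) (CuspFormClass.zero_at_infty_slash f δ)
  obtain ⟨c, hc⟩ := h1.exists_eq_add ((hasPrim_cuspPrim f).slash δ)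
  refine ⟨fun z => ?_, 0 + c, ?_⟩
  · rw [hc, hc, h2]
  · exact (h3.add_const c).congr fun z => (hc z).symm

/-- Under `γ ∈ Γ₀(N)`, `cuspPrim f` changes by a constant. -/
theorem cuspPrim_equivariant (f : CuspForm (Gamma0 N) 2) (γ : Gamma0 N) :
    ∃ c : ℂ, ∀ z : ℍ, cuspPrim f ((γ : SL(2, ℤ)) • z) - cuspPrim f z = c := by
  have h := (hasPrim_cuspPrim f).slash (γ : SL(2, ℤ))
  rw [slash_of_mem_Gamma0 f γ.2] at h
  obtain ⟨c, hc⟩ := (hasPrim_cuspPrim f).exists_eq_add h
  exact ⟨c, fun z => by rw [hc z]; ring⟩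

/-- `cuspPrim` is additive. -/
theorem cuspPrim_add (f g : CuspForm (Gamma0 N) 2) :
    cuspPrim (f + g) = cuspPrim f + cuspPrim g := by
  refine (eq_cuspPrim ?_ ?_).symm
  · rw [FunLike.coe_add]
    exact (hasPrim_cuspPrim f).add (hasPrim_cuspPrim g)
  · have := (tendsto_cuspPrim f).add (tendsto_cuspPrim g)
    rw [add_zero] at this
    exact this

/-- `cuspPrim` commutes with scalars. -/
theorem cuspPrim_smul (c : ℂ) (f : CuspForm (Gamma0 N) 2) :
    cuspPrim (c • f) = c • cuspPrim f := by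
  refine (eq_cuspPrim ?_ ?_).symm
  · rw [show ⇑(c • f) = c • ⇑f from rfl]
    exact (hasPrim_cuspPrim f).const_smul c
  · have := (tendsto_cuspPrim f).const_mul c
    rw [mul_zero] at this
    exact this

end Fermat.MF
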