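import Mathlib.Analysis.Complex.AbsMax
import Mathlib.Analysis.Complex.RealDeriv
import Fermat.Agent.MF.Primitive
import Fermat.Prelude.Def_ModularCurve_PeriodHomPair

/-!
# Periods of weight two cusp forms: linearity, parabolicity, injectivity

The injectivity half of the Eichler–Shimura isomorphism: a holomorphic potential on `ℍ` whose
periods are purely imaginary is constant, by the maximum modulus principle applied to its
exponential on the finitely many cusp charts.

`periodHomPair_injective` and `range_periodHomPair_le`, from the primitives of `Primitive`; used for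
`ParabolicDim` and for the periods of `HM/PeriodSpan`.
-/

namespace Fermat.MF

open UpperHalfPlane CongruenceSubgroup Filter Topology Function ModularCurve
open ModularCurve.Period
open scoped MatrixGroups Manifold ComplexConjugate

variable {N : ℕ}

/-- A holomorphic function on `ℍ` which is periodic and bounded in every cusp chart and which is
equivariant up to additive constants. -/
structure IsPotential (N : ℕ) (G : ℍ → ℂ) : Prop where
  /-- The function is holomorphic. -/
  holo : MDiff G
  /-- It is `N`-periodic in every cusp chart. -/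
  periodic : ∀ (δ : SL(2, ℤ)) (z : ℍ), G (δ • ((N : ℝ) +ᵥ z)) = G (δ • z)
  /-- It is bounded at every cusp. -/
  bdd : ∀ δ : SL(2, ℤ), IsBoundedAtImInfty fun w : ℍ => G (δ • w)
  /-- It is equivariant for `Γ₀(N)` up to additive constants. -/
  equiv : IsEquivariantPrimitive (Gamma0 N) G

/-- A translate of a holomorphic function on `ℍ` is holomorphic. -/
theorem mdifferentiable_comp_SL_smul {G : ℍ → ℂ} (hG : MDiff G) (δ : SL(2, ℤ)) :
    MDiff fun w : ℍ => G (δ • w) :=
  hG.comp (UpperHalfPlane.mdifferentiable_smul (g := (δ : GL (Fin 2) ℝ))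
    (by simp))

/-- A function periodic and bounded in every cusp chart whose real part is invariant under a
subgroup of finite index is constant, by the maximum modulus principle. -/
theorem isConst_of_re_smul_eq {Γ : Subgroup SL(2, ℤ)} [Γ.FiniteIndex] {M : ℕ} [NeZero M]
    {G : ℍ → ℂ} (hhol : MDiff G)
    (hper : ∀ (δ : SL(2, ℤ)) (z : ℍ), G (δ • ((M : ℝ) +ᵥ z)) = G (δ • z))
    (hbdd : ∀ δ : SL(2, ℤ), IsBoundedAtImInfty fun w : ℍ => G (δ • w))
    (hre : ∀ γ ∈ Γ, ∀ z : ℍ, (G (γ • z)).re = (G z).re) :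
    ∀ z w : ℍ, G z = G w := by
  have hM : (0 : ℝ) < M := Nat.cast_pos.mpr (NeZero.pos M)
  let E : SL(2, ℤ) → ℍ → ℂ := fun δ w => Complex.exp (G (δ • w))
  have hEper : ∀ δ, Function.Periodic (E δ ∘ ofComplex) ((M : ℝ) : ℂ) := fun δ =>
    periodic_comp_ofComplex fun z => by simp only [E]; rw [hper δ z]
  have hEhol : ∀ δ, MDiff (E δ) := fun δ => by
    have := UpperHalfPlane.mdifferentiable_iff.mp (mdifferentiable_comp_SL_smul hhol δ)
    exact UpperHalfPlane.mdifferentiable_iff.mpr this.cexp
  have hEbdd : ∀ δ, IsBoundedAtImInfty (E δ) := fun δ => by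
    obtain ⟨C, A, hC⟩ := isBoundedAtImInfty_iff.mp (hbdd δ)
    refine isBoundedAtImInfty_iff.mpr ⟨Real.exp C, A, fun z hz => ?_⟩
    simp only [E, Complex.norm_exp]
    exact Real.exp_le_exp.mpr ((Complex.re_le_norm _).trans (hC z hz))
  have hφd : ∀ δ, DifferentiableOn ℂ (cuspFunction (M : ℝ) (E δ)) (Metric.ball 0 1) :=
    fun δ => differentiableOn_cuspFunction_ball hM (hEper δ) (hEhol δ) (hEbdd δ)
  have : Finite (SL(2, ℤ) ⧸ Γ) := inferInstance
  let rep : SL(2, ℤ) ⧸ Γ → SL(2, ℤ) := fun x => (x.out)⁻¹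
  set r : ℝ := Real.exp (-2 * Real.pi * (1 / 2) / M) with hr_def
  have hr1 : r < 1 := by
    refine Real.exp_lt_one_iff.mpr ?_
    have := Real.pi_pos
    exact div_neg_of_neg_of_pos (by nlinarith) hM
  have hball : Metric.closedBall (0 : ℂ) r ⊆ Metric.ball 0 1 := Metric.closedBall_subset_ball hr1
  -- a maximum on each chart, and the largest of them
  have hmax : ∀ x, ∃ q ∈ Metric.closedBall (0 : ℂ) r, IsMaxOn
      (fun q => ‖cuspFunction (M : ℝ) (E (rep x)) q‖) (Metric.closedBall 0 r) q := fun x =>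
    (isCompact_closedBall _ _).exists_isMaxOn (Metric.nonempty_closedBall.mpr (Real.exp_nonneg _))
      (((hφd _).continuousOn.mono hball).norm)
  choose q hq hqmax using hmax
  obtain ⟨x₀, hx₀⟩ := Finite.exists_max fun x => ‖cuspFunction (M : ℝ) (E (rep x)) (q x)‖
  have hle : ∀ z : ℍ, ‖Complex.exp (G z)‖ ≤ ‖cuspFunction (M : ℝ) (E (rep x₀)) (q x₀)‖ := by
    intro z
    obtain ⟨e₀, he₀⟩ := ModularGroup.exists_one_half_le_im_smul z
    set x : SL(2, ℤ) ⧸ Γ := QuotientGroup.mk e₀
    obtain ⟨γ, hγ⟩ := QuotientGroup.mk_out_eq_mul Γ e₀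
    have hz : z = (γ : SL(2, ℤ)) • (rep x • (e₀ • z)) := by
      simp only [rep, x, hγ, smul_smul]
      rw [show (γ : SL(2, ℤ)) * ((e₀ * γ)⁻¹ * e₀) = 1 by group, one_smul]
    have h1 : ‖Complex.exp (G z)‖ = ‖E (rep x) (e₀ • z)‖ := by
      conv_lhs => rw [hz]
      simp only [E, Complex.norm_exp]
      rw [hre _ γ.2]
    have hmem : Function.Periodic.qParam (M : ℝ) ((e₀ • z : ℍ) : ℂ) ∈
        Metric.closedBall (0 : ℂ) r := by
      rw [mem_closedBall_zero_iff, Function.Periodic.norm_qParam, hr_def]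
      refine Real.exp_le_exp.mpr (div_le_div_of_nonneg_right ?_ hM.le)
      have := Real.pi_pos
      rw [UpperHalfPlane.coe_im]
      nlinarith
    rw [h1, ← eq_cuspFunction (e₀ • z) hM.ne' (hEper (rep x))]
    exact (hqmax x hmem).trans (hx₀ x)
  -- the maximum chart is constant
  have hconst : Set.EqOn (cuspFunction (M : ℝ) (E (rep x₀)))
      (Function.const ℂ (cuspFunction (M : ℝ) (E (rep x₀)) (q x₀))) (Metric.ball 0 1) := by
    refine Complex.eqOn_of_isPreconnected_of_isMaxOn_norm (convex_ball _ _).isPreconnected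
      Metric.isOpen_ball (hφd _) (hball (hq x₀)) fun w hw => ?_
    rcases eq_or_ne w 0 with rfl | hw0
    · exact hqmax x₀ (Metric.mem_closedBall_self (Real.exp_nonneg _))
    · have hτ := Function.Periodic.im_invQParam_pos_of_norm_lt_one hM
        (mem_ball_zero_iff.mp hw) hw0
      have := eq_cuspFunction (⟨_, hτ⟩ : ℍ) hM.ne' (hEper (rep x₀))
      rw [Function.Periodic.qParam_right_inv hM.ne' hw0] at this
      change ‖cuspFunction _ _ w‖ ≤ _
      rw [this]
      exact hle _
  have hEconst : ∀ z w : ℍ, Complex.exp (G z) = Complex.exp (G w) := by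
    suffices H : ∀ z : ℍ, Complex.exp (G z) = cuspFunction (M : ℝ) (E (rep x₀)) (q x₀) from
      fun z w => (H z).trans (H w).symm
    intro z
    have := hconst (mem_ball_zero_iff.mpr
      (Function.Periodic.norm_qParam_lt_one hM ((rep x₀)⁻¹ • z).im_pos))
    rw [eq_cuspFunction _ hM.ne' (hEper _)] at this
    simpa [E] using this
  have hG' : HasPrim 0 G := by
    intro τ
    have hd : DifferentiableAt ℂ (G ∘ ofComplex) (τ : ℂ) :=
      UpperHalfPlane.mdifferentiableAt_iff.mp (hhol τ)
    have h1 := hd.hasDerivAt.cexp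
    have h2 : HasDerivAt (fun z => Complex.exp ((G ∘ ofComplex) z)) (0 : ℂ) (τ : ℂ) :=
      (hasDerivAt_const (τ : ℂ) (Complex.exp (G τ))).congr_of_eventuallyEq
        (Filter.Eventually.of_forall fun w => hEconst (ofComplex w) τ)
    have h3 := h1.unique h2
    rw [mul_eq_zero, or_iff_right (Complex.exp_ne_zero _)] at h3
    have := hd.hasDerivAt
    rw [h3] at this
    exact this
  exact hG'.isConst

namespace IsPotential

variable {G : ℍ → ℂ}

/-- Potentials add. -/
theorem add {G' : ℍ → ℂ} (h : IsPotential N G) (h' : IsPotential N G') :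
    IsPotential N (G + G') where
  holo := h.holo.add h'.holo
  periodic δ z := by simp only [Pi.add_apply, h.periodic δ z, h'.periodic δ z]
  bdd δ := (h.bdd δ).add (h'.bdd δ)
  equiv γ := by
    obtain ⟨c, hc⟩ := h.equiv γ
    obtain ⟨c', hc'⟩ := h'.equiv γ
    exact ⟨c + c', fun z => by simp only [Pi.add_apply]; rw [← hc z, ← hc' z]; ring⟩

/-- Potentials scale. -/
theorem smul (h : IsPotential N G) (a : ℂ) : IsPotential N (a • G) where
  holo := h.holo.const_smul a
  periodic δ z := by simp only [Pi.smul_apply, h.periodic δ z]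
  bdd δ := (h.bdd δ).const_mul_left a
  equiv γ := by
    obtain ⟨c, hc⟩ := h.equiv γ
    exact ⟨a * c, fun z => by simp only [Pi.smul_apply, smul_eq_mul]; rw [← hc z]; ring⟩

/-- A potential whose periods are purely imaginary is constant. -/
theorem isConst_of_re_period_eq_zero [NeZero N] (h : IsPotential N G)
    (hre : ∀ (γ : Gamma0 N) (z : ℍ), (G ((γ : SL(2, ℤ)) • z)).re = (G z).re) :
    ∀ z w : ℍ, G z = G w :=
  isConst_of_re_smul_eq (Γ := Gamma0 N) h.holo h.periodic h.bdd fun γ hγ => hre ⟨γ, hγ⟩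

end IsPotential

variable [NeZero N]

/-- The primitive of a cusp form is a potential. -/
theorem isPotential_cuspPrim (f : CuspForm (Gamma0 N) 2) : IsPotential N (cuspPrim f) where
  holo := (hasPrim_cuspPrim f).mdifferentiable
  periodic δ z := (cuspPrim_smul_structure f δ).1 z
  bdd δ := by
    obtain ⟨L, hL⟩ := (cuspPrim_smul_structure f δ).2
    exact hL.isBigO_one ℝ
  equiv := cuspPrim_equivariant f

/-- The primitive of a cusp form is an equivariant primitive in the sense of the period map. -/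
theorem hasEquivariantPrimitive_cuspPrim (f : CuspForm (Gamma0 N) 2) :
    HasEquivariantPrimitive N f (cuspPrim f) :=
  ⟨hasPrim_cuspPrim f, tendsto_cuspPrim f, cuspPrim_equivariant f,
    fun δ => (cuspPrim_smul_structure f δ).2⟩

/-- The period at `γ` is the change of `cuspPrim f` under `γ`. -/
theorem periodMap_eq (f : CuspForm (Gamma0 N) 2) (γ : Gamma0 N) (z : ℍ) :
    periodMap N f (Additive.ofMul γ) = cuspPrim f ((γ : SL(2, ℤ)) • z) - cuspPrim f z := by
  obtain ⟨F₀, h₀, hP⟩ := periodMap_def N f (hasEquivariantPrimitive_cuspPrim f)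
  obtain rfl := eq_cuspPrim h₀.1 h₀.2.1
  rw [hP, IsEquivariantPrimitive.periodHom_apply]
  exact (IsEquivariantPrimitive.sub_eq_period _ γ z).symm

/-- `periodMap_eq` for an argument written additively. -/
theorem periodMap_eq_toMul (f : CuspForm (Gamma0 N) 2) (γ : Additive (Gamma0 N)) (z : ℍ) :
    periodMap N f γ = cuspPrim f (((Additive.toMul γ : Gamma0 N) : SL(2, ℤ)) • z) - cuspPrim f z :=
  periodMap_eq f (Additive.toMul γ) z

/-- The period map as a linear map. -/
noncomputable def periodMapLin (N : ℕ) [NeZero N] :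
    CuspForm (Gamma0 N) 2 →ₗ[ℂ] (Additive (Gamma0 N) →+ ℂ) where
  toFun f := periodMap N f
  map_add' f g := by
    refine AddMonoidHom.ext fun γ => ?_
    simp only [AddMonoidHom.add_apply, periodMap_eq_toMul _ _ UpperHalfPlane.I,
      cuspPrim_add, Pi.add_apply]
    ring
  map_smul' c f := by
    refine AddMonoidHom.ext fun γ => ?_
    simp only [AddMonoidHom.smul_apply, RingHom.id_apply, periodMap_eq_toMul _ _ UpperHalfPlane.I,
      cuspPrim_smul, Pi.smul_apply, smul_eq_mul]
    ring

/-- The value of the period pair at `γ`. -/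
theorem periodHomPair_apply (f g : CuspForm (Gamma0 N) 2) (γ : Gamma0 N) :
    periodHomPair N (f, g) (Additive.ofMul γ) =
      periodMap N (f + g) (Additive.ofMul γ)
        + periodMap N (f - g) (Additive.ofMul (jConjGamma0 N γ)) := by
  obtain ⟨pml, hpml, hP⟩ := periodHomPair_def N ⟨periodMapLin N, fun _ => rfl⟩
  rw [hP]
  have ha : periodMap N (f + g) = periodMap N f + periodMap N g := (periodMapLin N).map_add f g
  have hs : periodMap N (f - g) = periodMap N f - periodMap N g := (periodMapLin N).map_sub f g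
  simp only [LinearMap.coprod_apply, LinearMap.comp_apply, hpml, LinearMap.add_apply,
    LinearMap.sub_apply, LinearMap.id_apply, AddMonoidHom.add_apply, AddMonoidHom.sub_apply,
    charInvolution_apply, toMul_ofMul, ha, hs]
  ring

/-- The reflection `J` conjugates the action of `γ` to that of `jConjSL γ`. -/
theorem J_smul_SL_smul (γ : SL(2, ℤ)) (z : ℍ) : J • (γ • z) = jConjSL γ • (J • z) := by
  have h : J * (γ : GL (Fin 2) ℝ) = (jConjSL γ : GL (Fin 2) ℝ) * J := by
    ext i j
    fin_cases i <;> fin_cases j <;>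
      simp [UpperHalfPlane.J, Matrix.mul_apply, Fin.sum_univ_two]
  change J • ((γ : GL (Fin 2) ℝ) • z) = (jConjSL γ : GL (Fin 2) ℝ) • (J • z)
  rw [← mul_smul, h, mul_smul]

omit [NeZero N] in
/-- The potential `z ↦ conj (F (-conj z))`. -/
theorem IsPotential.conjJ {G : ℍ → ℂ} (h : IsPotential N G) :
    IsPotential N fun z => conj (G (J • z)) where
  holo := by
    have hG := UpperHalfPlane.mdifferentiable_iff.mp h.holo
    refine UpperHalfPlane.mdifferentiable_iff.mpr fun z hz => ?_
    have hz' : 0 < (-conj z).im := by simpa using hz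
    have hd := hG.differentiableAt (isOpen_upperHalfPlaneSet.mem_nhds hz')
    have h2 : DifferentiableAt ℂ (fun x => conj ((G ∘ ofComplex) (-conj x))) z := by
      simpa [Function.comp_def] using! (hd.comp _ differentiable_neg.differentiableAt).star_star
    refine (h2.congr_of_eventuallyEq ?_).differentiableWithinAt
    filter_upwards [isOpen_upperHalfPlaneSet.mem_nhds hz] with w hw
    simp [J_smul, ofComplex_apply_of_im_pos hw]
  periodic δ z := by
    have hJ : J • (((N : ℝ)) +ᵥ z) = (-(N : ℝ)) +ᵥ (J • z) := by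
      ext
      simp [coe_J_smul]
      ring
    rw [J_smul_SL_smul, J_smul_SL_smul, hJ]
    have := h.periodic (jConjSL δ) ((-(N : ℝ)) +ᵥ (J • z))
    rw [vadd_vadd, add_neg_cancel, zero_vadd] at this
    rw [this]
  bdd δ := by
    obtain ⟨M, A, hM⟩ := isBoundedAtImInfty_iff.mp (h.bdd (jConjSL δ))
    refine isBoundedAtImInfty_iff.mpr ⟨M, A, fun z hz => ?_⟩
    rw [J_smul_SL_smul, Complex.norm_conj]
    refine hM _ ?_
    rw [← UpperHalfPlane.coe_im, coe_J_smul]
    simpa using hz
  equiv γ := by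
    obtain ⟨c, hc⟩ := h.equiv (jConjGamma0 N γ)
    refine ⟨conj c, fun z => ?_⟩
    dsimp only
    rw [J_smul_SL_smul, ← map_sub, ← hc (J • z)]
    rfl

/-- A cusp form with constant primitive is zero. -/
theorem eq_zero_of_cuspPrim_const {f : CuspForm (Gamma0 N) 2}
    (h : ∀ z w, cuspPrim f z = cuspPrim f w) : f = 0 := by
  ext τ
  have h2 : HasDerivAt (cuspPrim f ∘ ofComplex) (0 : ℂ) (τ : ℂ) :=
    (hasDerivAt_const (τ : ℂ) (cuspPrim f τ)).congr_of_eventuallyEq
      (Filter.Eventually.of_forall fun w => h (ofComplex w) τ)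
  exact (hasPrim_cuspPrim f τ).unique h2

/-- The period map of Eichler–Shimura is injective. -/
theorem periodHomPair_injective (N : ℕ) [NeZero N] :
    Function.Injective (periodHomPair N) := by
  refine (injective_iff_map_eq_zero _).mpr ?_
  rintro ⟨f, g⟩ h0
  set A := cuspPrim (f + g)
  set B : ℍ → ℂ := fun z => conj (cuspPrim (f - g) (J • z))
  have hA : IsPotential N A := isPotential_cuspPrim _
  have hB : IsPotential N B := (isPotential_cuspPrim _).conjJ
  -- the periods of `A` and `conj B` cancel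
  have key : ∀ (γ : Gamma0 N) (z : ℍ),
      (A ((γ : SL(2, ℤ)) • z) - A z) + conj (B ((γ : SL(2, ℤ)) • z) - B z) = 0 := by
    intro γ z
    have h := periodHomPair_apply f g γ
    rw [h0] at h
    simp only [AddMonoidHom.zero_apply] at h
    rw [periodMap_eq _ γ z, periodMap_eq _ (jConjGamma0 N γ) (J • z)] at h
    simp only [B, map_sub, Complex.conj_conj, J_smul_SL_smul]
    exact h.symm
  -- so `A + B` and `i (A - B)` have imaginary periods, hence are constant
  have h1 := (hA.add hB).isConst_of_re_period_eq_zero fun γ z => by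
    have := congrArg Complex.re (key γ z)
    simp only [Complex.add_re, Complex.sub_re, Complex.conj_re, Complex.zero_re] at this
    simp only [Pi.add_apply, Complex.add_re]
    linarith
  have h2 := ((hA.add (hB.smul (-1))).smul Complex.I).isConst_of_re_period_eq_zero fun γ z => by
    have := congrArg Complex.im (key γ z)
    simp only [Complex.add_im, Complex.sub_im, Complex.conj_im, Complex.zero_im] at this
    simp only [Pi.add_apply, Pi.smul_apply, smul_eq_mul, Complex.mul_re, Complex.I_re,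
      Complex.I_im, zero_mul, one_mul, zero_sub, Complex.add_im, neg_mul,
      Complex.neg_im]
    linarith
  -- so both primitives are constant, and `f + g = 0 = f - g`
  have hAc : ∀ z w, A z = A w := fun z w => by
    have a := h1 z w
    have b := h2 z w
    simp only [Pi.add_apply, Pi.smul_apply, smul_eq_mul] at a b
    have b' := mul_left_cancel₀ Complex.I_ne_zero b
    linear_combination (a + b') / 2
  have hBc : ∀ z w, cuspPrim (f - g) z = cuspPrim (f - g) w := fun z w => by
    have a := h1 (J • z) (J • w)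
    simp only [Pi.add_apply, hAc (J • z) (J • w), add_right_inj, B] at a
    have hJJ : ∀ u : ℍ, J • (J • u) = u := fun u => by ext; simp [coe_J_smul]
    rw [hJJ, hJJ] at a
    exact (starRingEnd ℂ).injective a
  have e1 : f + g = 0 := eq_zero_of_cuspPrim_const hAc
  have e2 : f - g = 0 := eq_zero_of_cuspPrim_const hBc
  have hfg : f = g := sub_eq_zero.mp e2
  subst hfg
  have : f = 0 := by
    have : (2 : ℂ) • f = 0 := by rw [two_smul]; exact e1
    exact (smul_eq_zero.mp this).resolve_left two_ne_zero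
  simp [this]

/-- An element of trace `±2` acts as a conjugate of a translation. -/
theorem exists_conj_T_zpow_of_trace_sq (γ : SL(2, ℤ))
    (h : (γ : Matrix (Fin 2) (Fin 2) ℤ).trace ^ 2 = 4) :
    ∃ (δ : SL(2, ℤ)) (n : ℤ), ∀ z : ℍ, γ • (δ • z) = δ • (ModularGroup.T ^ n • z) := by
  obtain ⟨δ, hδ⟩ : ∃ δ : SL(2, ℤ), (δ⁻¹ * γ * δ) 1 0 = 0 := by
    rcases eq_or_ne (γ 1 0) 0 with hc | hc
    · exact ⟨1, by simpa using hc⟩
    obtain ⟨ε, hε, hε2⟩ : ∃ ε : ℤ, γ 0 0 + γ 1 1 = 2 * ε ∧ ε * ε = 1 := by
      rw [Matrix.trace_fin_two] at h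
      have h' : (γ 0 0 + γ 1 1 - 2) * (γ 0 0 + γ 1 1 + 2) = 0 := by linear_combination h
      rcases mul_eq_zero.mp h' with h1 | h1
      · exact ⟨1, by omega, by norm_num⟩
      · exact ⟨-1, by omega, by norm_num⟩
    have hpos : 0 < Int.gcd (ε - γ 1 1) (γ 1 0) := Int.gcd_pos_of_ne_zero_right _ hc
    obtain ⟨g, v₀, v₁, -, hcop, hv0, hv1⟩ :
        ∃ (g : ℕ) (v₀ v₁ : ℤ), 0 < g ∧ Int.gcd v₀ v₁ = 1 ∧ ε - γ 1 1 = v₀ * g ∧ γ 1 0 = v₁ * g :=
      Int.exists_gcd_one' hpos
    obtain ⟨u, w, huw⟩ := Int.isCoprime_iff_gcd_eq_one.mpr hcop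
    refine ⟨⟨!![v₀, -w; v₁, u], by rw [Matrix.det_fin_two_of]; linear_combination huw⟩, ?_⟩
    have hdet : γ 0 0 * γ 1 1 - γ 0 1 * γ 1 0 = 1 := by
      have := Matrix.SpecialLinearGroup.det_coe γ
      rwa [Matrix.det_fin_two] at this
    have hg : (g : ℤ) ≠ 0 := by rintro h0; rw [h0, mul_zero] at hv1; exact hc hv1
    have e0 : γ 0 0 * v₀ + γ 0 1 * v₁ = ε * v₀ := by
      apply mul_right_cancel₀ hg
      linear_combination (ε - γ 0 0) * hv0 - γ 0 1 * hv1 + (ε) * hε - hdet + (1 : ℤ) * hε2
    have e1 : γ 1 0 * v₀ + γ 1 1 * v₁ = ε * v₁ := by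
      apply mul_right_cancel₀ hg
      linear_combination -γ 1 0 * hv0 + (ε - γ 1 1) * hv1
    rw [mul_assoc, Matrix.SpecialLinearGroup.coe_mul, Matrix.SpecialLinearGroup.coe_inv,
      Matrix.SpecialLinearGroup.coe_mul]
    simp [Matrix.adjugate_fin_two, Matrix.mul_apply, Fin.sum_univ_two, e0, e1]
    ring
  obtain ⟨n, hn⟩ := ModularGroup.exists_eq_T_zpow_of_c_eq_zero hδ
  refine ⟨δ, n, fun z => ?_⟩
  rw [← hn z, smul_smul, smul_smul]
  congr 1
  group

/-- Periods of cusp forms are parabolic. -/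
theorem periodMap_mem_parabolicHoms (f : CuspForm (Gamma0 N) 2) :
    periodMap N f ∈ parabolicHoms ℂ (Gamma0 N) ℂ := by
  intro γ hγ
  obtain ⟨δ, n, hn⟩ := exists_conj_T_zpow_of_trace_sq _ hγ
  obtain ⟨L, hL⟩ := (cuspPrim_smul_structure f δ).2
  have ht : Tendsto (fun z : ℍ => ModularGroup.T ^ n • z) atImInfty atImInfty := by
    rw [atImInfty, tendsto_comap_iff]
    simp only [Function.comp_def, ModularGroup.im_T_zpow_smul]
    exact tendsto_comap
  have h1 : Tendsto (fun z : ℍ => cuspPrim f ((γ : SL(2, ℤ)) • (δ • z)) - cuspPrim f (δ • z))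
      atImInfty (𝓝 (L - L)) := by
    refine Tendsto.sub ?_ hL
    simpa only [Function.comp_def, ← hn] using hL.comp ht
  have h2 : Tendsto (fun z : ℍ => cuspPrim f ((γ : SL(2, ℤ)) • (δ • z)) - cuspPrim f (δ • z))
      atImInfty (𝓝 (periodMap N f (Additive.ofMul γ))) := by
    simp only [← periodMap_eq f γ]
    exact tendsto_const_nhds
  rw [tendsto_nhds_unique h2 h1, sub_self]

/-- Period pairs are parabolic. -/
theorem range_periodHomPair_le (N : ℕ) [NeZero N] :
    LinearMap.range (periodHomPair N) ≤ parabolicHoms ℂ (Gamma0 N) ℂ := by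
  rintro φ ⟨⟨f, g⟩, rfl⟩
  obtain ⟨pml, hpml, hP⟩ := periodHomPair_def N ⟨periodMapLin N, fun _ => rfl⟩
  rw [hP]
  simp only [LinearMap.coprod_apply, LinearMap.comp_apply, hpml, LinearMap.add_apply,
    LinearMap.sub_apply, LinearMap.id_apply]
  have hf := periodMap_mem_parabolicHoms f
  have hg := periodMap_mem_parabolicHoms g
  exact add_mem (add_mem hf (charInvolution_mem_parabolicHoms N ℂ ℂ hf))
    (sub_mem hg (charInvolution_mem_parabolicHoms N ℂ ℂ hg))

end Fermat.MF
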