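import Fermat.Agent.MF.DedekindPsi
import Fermat.Agent.SL2.CosetAction
import Fermat.Agent.MF.PeriodInjective
import Mathlib.LinearAlgebra.Trace
import Mathlib.LinearAlgebra.Dual.Lemmas
import Mathlib.LinearAlgebra.Matrix.FixedDetMatrices

/-!
# The space of parabolic homomorphisms of `Γ₀(N)` has dimension at most twice the genus

`Γ₀(N)`-homomorphisms are read as one-cocycles of `SL(2, ℤ)` on functions on the cosets, which are
determined by their values on the generators `S` and `S * T`.

`finrank_parabolicHoms_le`; with the injectivity of `PeriodInjective` this gives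
`periodHomPair_eichlerShimura` (S21) once the cusp forms have dimension the genus (`MC/X0/DimS2`).
-/

namespace Fermat.MF

open CongruenceSubgroup ModularGroup ModularCurve ModularCurve.Period
open scoped MatrixGroups

section Perm

variable {Z : Type*} [Fintype Z]

/-- Composition with a self-map, as a linear map. -/
def pullLin (f : Z → Z) : (Z → ℂ) →ₗ[ℂ] (Z → ℂ) := LinearMap.funLeft ℂ ℂ f

/-- The trace of composition with `f` is the number of fixed points of `f`. -/
theorem trace_pullLin (f : Z → Z) :
    LinearMap.trace ℂ (Z → ℂ) (pullLin f) = (Nat.card {x // f x = x} : ℂ) := by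
  classical
  rw [LinearMap.trace_eq_matrix_trace ℂ (Pi.basisFun ℂ Z), Matrix.trace]
  simp only [Matrix.diag, LinearMap.toMatrix_apply, Pi.basisFun_apply, Pi.basisFun_repr, pullLin,
    LinearMap.funLeft_apply, Pi.single_apply]
  rw [Finset.sum_boole, Nat.card_eq_fintype_card, Fintype.card_subtype]

/-- For an idempotent, the dimension of the kernel plus the trace is the dimension. -/
theorem finrank_ker_add_trace {V : Type*} [AddCommGroup V] [Module ℂ V] [FiniteDimensional ℂ V]
    (P : V →ₗ[ℂ] V) (hP : P ∘ₗ P = P) :
    (Module.finrank ℂ (LinearMap.ker P) : ℂ) + LinearMap.trace ℂ V P = Module.finrank ℂ V := by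
  have hproj : LinearMap.IsProj (LinearMap.range P) P :=
    ⟨fun x => LinearMap.mem_range_self P x, by
      rintro x ⟨y, rfl⟩
      exact LinearMap.congr_fun hP y⟩
  rw [hproj.trace, ← Nat.cast_add, add_comm, LinearMap.finrank_range_add_finrank_ker]

/-- The dimension of the antisymmetric functions for an involution, in terms of its fixed points. -/
theorem two_mul_finrank_ker_involution (f : Z → Z) (hf : ∀ x, f (f x) = x) :
    (2 * Module.finrank ℂ (LinearMap.ker (1 + pullLin f)) : ℂ)
      + Nat.card {x // f x = x} = Fintype.card Z := by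
  have h := finrank_ker_add_trace ((2 : ℂ)⁻¹ • (1 + pullLin f)) (by
    refine LinearMap.ext fun w => funext fun x => ?_
    simp [pullLin, LinearMap.funLeft_apply, hf]
    ring)
  rw [LinearMap.ker_smul _ _ (inv_ne_zero two_ne_zero), map_smul, map_add, trace_pullLin,
    LinearMap.trace_one, Module.finrank_fintype_fun_eq_card, smul_eq_mul] at h
  linear_combination 2 * h

/-- The dimension of the kernel of the norm of a map of order three on functions. -/
theorem three_mul_finrank_ker_order_three (f : Z → Z) (hf : ∀ x, f (f (f x)) = x) :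
    (3 * Module.finrank ℂ (LinearMap.ker (1 + pullLin f + pullLin (f ∘ f))) : ℂ)
      + 2 * Nat.card {x // f x = x} = 2 * Fintype.card Z := by
  have h := finrank_ker_add_trace ((3 : ℂ)⁻¹ • (1 + pullLin f + pullLin (f ∘ f))) (by
    refine LinearMap.ext fun w => funext fun x => ?_
    simp [pullLin, LinearMap.funLeft_apply, Function.comp_def, hf]
    ring)
  have hfix : Nat.card {x // (f ∘ f) x = x} = Nat.card {x // f x = x} :=
    Nat.card_congr (Equiv.subtypeEquivRight fun x =>
      ⟨fun h => by
        have := hf x
        rwa [show f (f x) = x from h] at this,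
       fun h => by rw [Function.comp_apply, h, h]⟩)
  rw [LinearMap.ker_smul _ _ (inv_ne_zero three_ne_zero), map_smul, map_add, map_add,
    trace_pullLin, trace_pullLin, hfix,
    LinearMap.trace_one, Module.finrank_fintype_fun_eq_card, smul_eq_mul] at h
  linear_combination 3 * h

end Perm

variable {N : ℕ}

/-- The elliptic generator of order three in `PSL(2, ℤ)`. -/
def genR : SL(2, ℤ) := S * T

/-- `(S T)³ = -1`. -/
theorem genR_cube : genR ^ 3 = -1 := SL2.ST_cube

/-- `S (S T) = -T`. -/
theorem S_mul_genR : S * genR = -T := by decide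

/-- `S` acts as an involution on the cosets. -/
theorem S_smul_S_smul (x : CosetX N) : S • S • x = x :=
  SL2.S_smul_S_smul (SL2.neg_one_mem_Gamma0 N) x

/-- `S T` acts with order dividing three on the cosets. -/
theorem genR_smul_cube (x : CosetX N) : genR • genR • genR • x = x :=
  SL2.ST_smul_cube (SL2.neg_one_mem_Gamma0 N) x

/-- `S` and `S T` generate `SL(2, ℤ)`. -/
theorem closure_S_genR : Subgroup.closure ({S, genR} : Set SL(2, ℤ)) = ⊤ := by
  rw [eq_top_iff, ← SpecialLinearGroup.SL2Z_generators, Subgroup.closure_le]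
  rintro g (rfl | rfl)
  · exact Subgroup.subset_closure (by simp)
  · have : T = S⁻¹ * genR := by rw [genR]; group
    rw [this]
    exact mul_mem (inv_mem (Subgroup.subset_closure (by simp)))
      (Subgroup.subset_closure (by simp))

/-- A function on the cosets invariant under `S` and `S * T` is constant. -/
theorem eq_of_invariant {α : Type*} {f : CosetX N → α} (hS : ∀ x, f (S • x) = f x)
    (hR : ∀ x, f (genR • x) = f x) (x y : CosetX N) : f x = f y := by
  have key : ∀ g : SL(2, ℤ), ∀ z, f (g • z) = f z := by
    intro g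
    have hg : g ∈ Subgroup.closure ({S, genR} : Set SL(2, ℤ)) := closure_S_genR ▸ Subgroup.mem_top g
    induction hg using Subgroup.closure_induction with
    | mem g hg =>
      rcases hg with rfl | rfl
      · exact hS
      · exact hR
    | one => simp
    | mul a b _ _ ha hb => intro z; rw [mul_smul, ha, hb]
    | inv a _ ha =>
      intro z
      conv_rhs => rw [← smul_inv_smul a z]
      rw [ha]
  obtain ⟨g, rfl⟩ := MulAction.exists_smul_eq (SL(2, ℤ)) y x
  exact key g y

/-- The element of `Γ₀(N)` carried by `g` at the coset `x`. -/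
noncomputable def transfer (g : SL(2, ℤ)) (x : CosetX N) : Gamma0 N :=
  ⟨(g • x).out⁻¹ * (g * x.out), by
    rw [← QuotientGroup.eq, QuotientGroup.out_eq', ← smul_eq_mul, ← MulAction.Quotient.smul_mk,
      QuotientGroup.out_eq']⟩

/-- The cocycle identity of the transfer. -/
theorem transfer_mul (g h : SL(2, ℤ)) (x : CosetX N) :
    transfer (g * h) x = transfer g (h • x) * transfer h x := by
  apply Subtype.ext
  change _ = _ * _
  simp only [transfer, mul_smul]
  group

/-- The cocycle of a homomorphism, adjusted by the coboundary of `b`. -/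
noncomputable def cocycle (φ : Additive (Gamma0 N) →+ ℂ) (b : CosetX N → ℂ) (g : SL(2, ℤ))
    (x : CosetX N) : ℂ :=
  φ (Additive.ofMul (transfer g x)) + (b (g • x) - b x)

/-- The cocycle identity. -/
theorem cocycle_mul (φ : Additive (Gamma0 N) →+ ℂ) (b : CosetX N → ℂ) (g h : SL(2, ℤ))
    (x : CosetX N) : cocycle φ b (g * h) x = cocycle φ b g (h • x) + cocycle φ b h x := by
  simp only [cocycle, transfer_mul, ofMul_mul, map_add, mul_smul]
  ring

/-- The cocycle vanishes at `1`. -/
theorem cocycle_one (φ : Additive (Gamma0 N) →+ ℂ) (b : CosetX N → ℂ) (x : CosetX N) :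
    cocycle φ b 1 x = 0 := by
  have := cocycle_mul φ b 1 1 x
  simpa using this

/-- The cocycle vanishes at `-1`. -/
theorem cocycle_neg_one (φ : Additive (Gamma0 N) →+ ℂ) (b : CosetX N → ℂ) (x : CosetX N) :
    cocycle φ b (-1) x = 0 := by
  have := cocycle_mul φ b (-1) (-1) x
  rw [neg_one_mul, neg_neg, cocycle_one, SL2.neg_one_smul_coset (SL2.neg_one_mem_Gamma0 N)] at this
  linear_combination (-1/2 : ℂ) * this

/-- The value at `S` is antisymmetric for `S`. -/
theorem cocycle_S_antisym (φ : Additive (Gamma0 N) →+ ℂ) (b : CosetX N → ℂ) (x : CosetX N) :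
    cocycle φ b S x + cocycle φ b S (S • x) = 0 := by
  have := cocycle_mul φ b S S x
  rw [SL2.S_mul_S, cocycle_neg_one] at this
  linear_combination -this

/-- The value at `S T` sums to zero over the orbits of `S T`. -/
theorem cocycle_genR_sum (φ : Additive (Gamma0 N) →+ ℂ) (b : CosetX N → ℂ) (x : CosetX N) :
    cocycle φ b genR x + cocycle φ b genR (genR • x) + cocycle φ b genR (genR • genR • x) = 0 := by
  have h1 := cocycle_mul φ b genR (genR * genR) x
  have h2 := cocycle_mul φ b genR genR x
  rw [← pow_three genR, genR_cube, cocycle_neg_one, h2,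
    mul_smul] at h1
  linear_combination -h1

/-- The value at `T` in terms of the values at `S` and `S T`. -/
theorem cocycle_T (φ : Additive (Gamma0 N) →+ ℂ) (b : CosetX N → ℂ) (x : CosetX N) :
    cocycle φ b T x = cocycle φ b S (genR • x) + cocycle φ b genR x := by
  have h : T = (-1) * (S * genR) := by rw [S_mul_genR]; simp
  rw [h, cocycle_mul, cocycle_neg_one, zero_add, cocycle_mul]

/-- The value at `T ^ n` is the sum of the values at `T` along the translates. -/
theorem cocycle_T_pow (φ : Additive (Gamma0 N) →+ ℂ) (b : CosetX N → ℂ) (n : ℕ) (x : CosetX N) :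
    cocycle φ b (T ^ n) x = ∑ i ∈ Finset.range n, cocycle φ b T (T ^ i • x) := by
  induction n with
  | zero => simp [cocycle_one]
  | succ n ih => rw [Finset.sum_range_succ, ← ih, pow_succ', cocycle_mul, add_comm]

/-- `T ^ N` fixes every coset. -/
theorem T_pow_level_smul (x : CosetX N) : (T ^ N) • x = x := by
  induction x using QuotientGroup.induction_on with
  | H g =>
    rw [MulAction.Quotient.smul_mk, smul_eq_mul, QuotientGroup.eq]
    have h : ((T ^ N * g)⁻¹ * g)⁻¹ ∈ Gamma0 N := by
      have := conj_T_pow_mem_Gamma0 (N := N) g⁻¹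
      rw [inv_inv] at this
      rw [show ((T ^ N * g)⁻¹ * g)⁻¹ = g⁻¹ * T ^ N * g by group]
      exact this
    exact inv_mem_iff.mp h

/-- Parabolicity: the cocycle vanishes at `T ^ N`. -/
theorem cocycle_T_pow_level {φ : Additive (Gamma0 N) →+ ℂ}
    (hφ : IsParabolicHom (Gamma0 N) φ) (b : CosetX N → ℂ) (x : CosetX N) :
    cocycle φ b (T ^ N) x = 0 := by
  rw [cocycle, T_pow_level_smul, sub_self, add_zero]
  refine hφ _ ?_
  simp only [transfer, T_pow_level_smul, Matrix.SpecialLinearGroup.coe_mul]
  rw [Matrix.trace_mul_comm, mul_assoc, ← Matrix.SpecialLinearGroup.coe_mul,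
    mul_inv_cancel, Matrix.SpecialLinearGroup.coe_one, mul_one, ← zpow_natCast, coe_T_zpow,
    Matrix.trace_fin_two]
  norm_num

/-- A cocycle vanishing on the generators vanishes. -/
theorem cocycle_eq_zero {φ : Additive (Gamma0 N) →+ ℂ} {b : CosetX N → ℂ}
    (hS : ∀ x, cocycle φ b S x = 0) (hR : ∀ x, cocycle φ b genR x = 0) (g : SL(2, ℤ)) :
    ∀ x, cocycle φ b g x = 0 := by
  have hg : g ∈ Subgroup.closure ({S, genR} : Set SL(2, ℤ)) := closure_S_genR ▸ Subgroup.mem_top g
  induction hg using Subgroup.closure_induction with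
  | mem g hg =>
    rcases hg with rfl | rfl
    · exact hS
    · exact hR
  | one => exact cocycle_one φ b
  | mul a c _ _ ha hc => intro x; rw [cocycle_mul, ha, hc, add_zero]
  | inv a _ ha =>
    intro x
    have := cocycle_mul φ b a a⁻¹ x
    rw [mul_inv_cancel, cocycle_one, ha, zero_add] at this
    exact this.symm

/-- The antisymmetric functions for `S`. -/
noncomputable def spaceS (N : ℕ) : Submodule ℂ (CosetX N → ℂ) :=
  LinearMap.ker (1 + LinearMap.funLeft ℂ ℂ (fun x : CosetX N => (S : SL(2, ℤ)) • x))

/-- The functions with vanishing sum over each orbit of `S * T`. -/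
noncomputable def spaceR (N : ℕ) : Submodule ℂ (CosetX N → ℂ) :=
  LinearMap.ker (1 + LinearMap.funLeft ℂ ℂ (fun x : CosetX N => genR • x)
    + LinearMap.funLeft ℂ ℂ ((fun x : CosetX N => genR • x) ∘ fun x => genR • x))

/-- Membership of `spaceS`. -/
theorem mem_spaceS {u : CosetX N → ℂ} : u ∈ spaceS N ↔ ∀ x, u x + u (S • x) = 0 := by
  simp [spaceS, funext_iff, LinearMap.funLeft_apply]

/-- Membership of `spaceR`. -/
theorem mem_spaceR {v : CosetX N → ℂ} :
    v ∈ spaceR N ↔ ∀ x, v x + v (genR • x) + v (genR • genR • x) = 0 := by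
  simp [spaceR, funext_iff, LinearMap.funLeft_apply]

/-- The functions vanishing at the base coset. -/
noncomputable def gaugeSpace (N : ℕ) : Submodule ℂ (CosetX N → ℂ) :=
  LinearMap.ker (LinearMap.proj (R := ℂ) (φ := fun _ : CosetX N => ℂ) (QuotientGroup.mk 1))

/-- Read a parabolic homomorphism and a gauge as the values at the two generators. -/
noncomputable def cocycleMap (N : ℕ) :
    (parabolicHoms ℂ (Gamma0 N) ℂ × gaugeSpace N) →ₗ[ℂ] (spaceS N × spaceR N) where
  toFun p := (⟨fun x => cocycle p.1.1 p.2.1 S x, mem_spaceS.mpr fun x => cocycle_S_antisym _ _ x⟩,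
    ⟨fun x => cocycle p.1.1 p.2.1 genR x, mem_spaceR.mpr fun x => cocycle_genR_sum _ _ x⟩)
  map_add' p q := by
    refine Prod.ext (Subtype.ext (funext fun x => ?_)) (Subtype.ext (funext fun x => ?_)) <;>
      simp [cocycle] <;> ring
  map_smul' a p := by
    refine Prod.ext (Subtype.ext (funext fun x => ?_)) (Subtype.ext (funext fun x => ?_)) <;>
      simp [cocycle] <;> ring

/-- The cocycle map is injective. -/
theorem cocycleMap_injective (N : ℕ) : Function.Injective (cocycleMap N) := by
  refine (injective_iff_map_eq_zero _).mpr ?_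
  rintro ⟨⟨φ, hφ⟩, ⟨b, hb⟩⟩ h
  have hS : ∀ x, cocycle φ b S x = 0 := fun x =>
    congrFun (congrArg Subtype.val (congrArg Prod.fst h)) x
  have hR : ∀ x, cocycle φ b genR x = 0 := fun x =>
    congrFun (congrArg Subtype.val (congrArg Prod.snd h)) x
  have hall := fun g => cocycle_eq_zero hS hR g
  set x₀ : CosetX N := QuotientGroup.mk 1 with hx₀
  have hb0 : b x₀ = 0 := hb
  have he : x₀.out ∈ Gamma0 N := by
    have h1 : (QuotientGroup.mk 1 : CosetX N) = QuotientGroup.mk x₀.out := by
      rw [QuotientGroup.out_eq']
    simpa using QuotientGroup.eq.mp h1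
  have hφ0 : φ = 0 := by
    refine AddMonoidHom.ext fun γ => ?_
    obtain ⟨γ, rfl⟩ := Additive.ofMul.surjective γ
    set e : Gamma0 N := ⟨x₀.out, he⟩
    have hfix : (γ : SL(2, ℤ)) • x₀ = x₀ := by
      rw [hx₀, MulAction.Quotient.smul_mk, smul_eq_mul, mul_one, eq_comm, QuotientGroup.eq]
      simp
    have h1 := hall (γ : SL(2, ℤ)) x₀
    have ht : transfer (γ : SL(2, ℤ)) x₀ = e⁻¹ * (γ * e) := by
      apply Subtype.ext
      simp [transfer, hfix, e]
    rw [cocycle, hfix, sub_self, add_zero, ht, ofMul_mul, ofMul_mul, map_add, map_add,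
      ofMul_inv, map_neg] at h1
    change φ (Additive.ofMul γ) = 0
    linear_combination h1
  subst hφ0
  have hbS : ∀ x, b (S • x) = b x := fun x => sub_eq_zero.mp (by simpa [cocycle] using hS x)
  have hbR : ∀ x, b (genR • x) = b x := fun x => sub_eq_zero.mp (by simpa [cocycle] using hR x)
  have hb' : b = 0 := funext fun x => (eq_of_invariant hbS hbR x x₀).trans hb0
  subst hb'
  rfl

variable [NeZero N]

/-- The cosets form a finite type. -/
noncomputable instance fintypeCosetX : Fintype (CosetX N) := Fintype.ofFinite _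

/-- Pair a function on the cusps with the value of a cocycle at `T`. -/
noncomputable def cuspPairing (N : ℕ) [NeZero N] :
    (CuspOrbits N → ℂ) →ₗ[ℂ] Module.Dual ℂ (spaceS N × spaceR N) where
  toFun l :=
    { toFun := fun w => ∑ x, l (Quotient.mk'' x) * (w.1.1 (genR • x) + w.2.1 x)
      map_add' := fun w w' => by
        rw [← Finset.sum_add_distrib]
        exact Finset.sum_congr rfl fun x _ => by simp; ring
      map_smul' := fun a w => by
        rw [RingHom.id_apply, smul_eq_mul, Finset.mul_sum]
        exact Finset.sum_congr rfl fun x _ => by simp; ring }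
  map_add' l l' := by
    refine LinearMap.ext fun w => ?_
    simp [add_mul, Finset.sum_add_distrib]
  map_smul' a l := by
    refine LinearMap.ext fun w => ?_
    simp [Finset.mul_sum, mul_assoc]

/-- Cocycles of parabolic homomorphisms are killed by the cusp pairing. -/
theorem cuspPairing_cocycleMap (l : CuspOrbits N → ℂ)
    (p : parabolicHoms ℂ (Gamma0 N) ℂ × gaugeSpace N) :
    cuspPairing N l (cocycleMap N p) = 0 := by
  change ∑ x, l (Quotient.mk'' x) *
    (cocycle p.1.1 p.2.1 S (genR • x) + cocycle p.1.1 p.2.1 genR x) = 0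
  simp only [← cocycle_T]
  set f : CosetX N → ℂ := fun x => cocycle p.1.1 p.2.1 T x with hf
  have hinv : ∀ (i : ℕ) (x : CosetX N),
      (Quotient.mk'' (T ^ i • x) : CuspOrbits N) = Quotient.mk'' x := fun i x =>
    (cuspOrbit_eq_iff _ _).mpr ⟨(i : ℤ), by rw [zpow_natCast]⟩
  have hNz : (N : ℂ) ≠ 0 := Nat.cast_ne_zero.mpr (NeZero.ne N)
  have key : (N : ℂ) * ∑ x, l (Quotient.mk'' x) * f x = 0 := by
    calc (N : ℂ) * ∑ x, l (Quotient.mk'' x) * f x
        = ∑ i ∈ Finset.range N, ∑ x, l (Quotient.mk'' x) * f (T ^ i • x) := by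
          rw [Finset.sum_congr rfl fun i _ => show
            ∑ x, l (Quotient.mk'' x) * f (T ^ i • x) = ∑ x, l (Quotient.mk'' x) * f x from
              Fintype.sum_equiv (MulAction.toPerm (T ^ i : SL(2, ℤ))) _ _ fun x => by
                simp only [MulAction.toPerm_apply, hinv]]
          simp
      _ = ∑ x, l (Quotient.mk'' x) * cocycle p.1.1 p.2.1 (T ^ N) x := by
          rw [Finset.sum_comm]
          simp only [cocycle_T_pow, Finset.mul_sum, hf]
      _ = 0 := by simp [cocycle_T_pow_level p.1.2]
  exact (mul_eq_zero.mp key).resolve_left hNz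

/-- A function on the cusps with vanishing pairing is constant. -/
theorem eq_of_cuspPairing_eq_zero {l : CuspOrbits N → ℂ} (h : cuspPairing N l = 0)
    (o o' : CuspOrbits N) :
    l o = l o' := by
  classical
  set m : CosetX N → ℂ := fun x => l (Quotient.mk'' x) with hm
  have happ : ∀ (u : spaceS N) (v : spaceR N), ∑ x, m x * (u.1 (genR • x) + v.1 x) = 0 :=
    fun u v => LinearMap.congr_fun h (u, v)
  have hiffR : ∀ x z : CosetX N, genR • x = z ↔ x = genR • genR • z := fun x z =>
    ⟨fun e => by rw [← e, genR_smul_cube], fun e => by rw [e, genR_smul_cube]⟩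
  -- testing on differences of two indicators: `m` is invariant under `genR`
  have hR : ∀ y, m (genR • y) = m y := by
    intro y
    have hv : (fun x => (if x = y then (1 : ℂ) else 0) - if x = genR • y then 1 else 0)
        ∈ spaceR N := by
      refine mem_spaceR.mpr fun x => ?_
      simp only [hiffR, genR_smul_cube]
      ring
    have := happ 0 ⟨_, hv⟩
    simp only [ZeroMemClass.coe_zero, Pi.zero_apply, zero_add, mul_sub, Finset.sum_sub_distrib,
      mul_ite, mul_one, mul_zero, Finset.sum_ite_eq', Finset.mem_univ, if_true, sub_eq_zero] at this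
    exact this.symm
  -- and under `S`
  have hS : ∀ y, m (S • y) = m y := by
    intro y
    have hiff : ∀ x z : CosetX N, S • x = z ↔ x = S • z := fun x z =>
      ⟨fun e => by rw [← e, S_smul_S_smul], fun e => by rw [e, S_smul_S_smul]⟩
    have hu : (fun x => (if x = y then (1 : ℂ) else 0) - if x = S • y then 1 else 0)
        ∈ spaceS N := by
      refine mem_spaceS.mpr fun x => ?_
      simp only [hiff, S_smul_S_smul]
      ring
    have h1 := happ ⟨_, hu⟩ 0
    simp only [ZeroMemClass.coe_zero, Pi.zero_apply, add_zero] at h1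
    simp only [hiffR, mul_sub, Finset.sum_sub_distrib, mul_ite, mul_one, mul_zero,
      Finset.sum_ite_eq', Finset.mem_univ, if_true, hR, sub_eq_zero] at h1
    exact h1.symm
  -- the two generate, so it is constant
  induction o using Quotient.inductionOn' with
  | h x =>
    induction o' using Quotient.inductionOn' with
    | h y => exact eq_of_invariant hS hR x y

/-- The values at the generators satisfy the cusp conditions. -/
theorem range_cocycleMap_le (N : ℕ) [NeZero N] :
    LinearMap.range (cocycleMap N) ≤ (LinearMap.range (cuspPairing N)).dualCoannihilator := by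
  rintro w ⟨p, rfl⟩
  rw [Submodule.mem_dualCoannihilator]
  rintro _ ⟨l, rfl⟩
  exact cuspPairing_cocycleMap l p

/-- The gauge space has codimension one. -/
theorem finrank_gaugeSpace (N : ℕ) [NeZero N] :
    Module.finrank ℂ (gaugeSpace N) + 1 = dedekindPsi N := by
  have hμ : Fintype.card (CosetX N) = dedekindPsi N := by
    rw [← Nat.card_eq_fintype_card]; exact card_cosetX N
  have h := LinearMap.finrank_range_add_finrank_ker
    (LinearMap.proj (R := ℂ) (φ := fun _ : CosetX N => ℂ) (QuotientGroup.mk 1))
  have hr : LinearMap.range (LinearMap.proj (R := ℂ) (φ := fun _ : CosetX N => ℂ)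
      (QuotientGroup.mk 1)) = ⊤ :=
    LinearMap.range_eq_top.mpr fun c => ⟨fun _ => c, rfl⟩
  rw [hr, finrank_top, Module.finrank_self, Module.finrank_fintype_fun_eq_card, hμ] at h
  rw [gaugeSpace]
  omega

/-- The size of the space of generator values satisfying the cusp conditions. -/
theorem finrank_cuspConditions_le (N : ℕ) [NeZero N] :
    (Module.finrank ℂ (LinearMap.range (cuspPairing N)).dualCoannihilator : ℚ) + 1
      ≤ 2 * genusFormula N + dedekindPsi N := by
  classical
  have : Finite (CuspOrbits N) :=
    Finite.of_surjective (Quotient.mk'' : CosetX N → CuspOrbits N) Quotient.mk''_surjective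
  let : Fintype (CuspOrbits N) := Fintype.ofFinite _
  -- dimensions of the pieces
  have hμ : Fintype.card (CosetX N) = dedekindPsi N := by
    rw [← Nat.card_eq_fintype_card]; exact card_cosetX N
  have hS' := two_mul_finrank_ker_involution (fun x : CosetX N => S • x) S_smul_S_smul
  have hR' := three_mul_finrank_ker_order_three (fun x : CosetX N => genR • x) genR_smul_cube
  rw [card_fixed_S, hμ] at hS'
  rw [show Nat.card {x : CosetX N // genR • x = x} = nuThree N from card_fixed_ST, hμ] at hR'
  have hS : 2 * Module.finrank ℂ (spaceS N) + nuTwo N = dedekindPsi N := by exact_mod_cast hS'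
  have hR : 3 * Module.finrank ℂ (spaceR N) + 2 * nuThree N = 2 * dedekindPsi N := by
    exact_mod_cast hR'
  -- the cusp conditions
  have hk : cuspCount N ≤ Module.finrank ℂ (LinearMap.range (cuspPairing N)) + 1 := by
    have h := LinearMap.finrank_range_add_finrank_ker (cuspPairing N)
    rw [Module.finrank_fintype_fun_eq_card, ← Nat.card_eq_fintype_card, card_cuspOrbits] at h
    have hker : Module.finrank ℂ (LinearMap.ker (cuspPairing N)) ≤ 1 := by
      let c : (LinearMap.ker (cuspPairing N)) →ₗ[ℂ] ℂ :=
        (LinearMap.proj (Quotient.mk'' (QuotientGroup.mk 1 : CosetX N))).comp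
          (LinearMap.ker (cuspPairing N)).subtype
      have hc : Function.Injective c := by
        refine (injective_iff_map_eq_zero _).mpr fun l hl => Subtype.ext (funext fun o => ?_)
        exact (eq_of_cuspPairing_eq_zero l.2 o _).trans hl
      simpa using LinearMap.finrank_le_finrank_of_injective hc
    omega
  have hco := Subspace.finrank_add_finrank_dualCoannihilator_eq (LinearMap.range (cuspPairing N))
  rw [Module.finrank_prod] at hco
  have hnat : Module.finrank ℂ (LinearMap.range (cuspPairing N)).dualCoannihilator + cuspCount N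
      ≤ Module.finrank ℂ (spaceS N) + Module.finrank ℂ (spaceR N) + 1 := by omega
  rw [genusFormula]
  have e1 : (2 : ℚ) * Module.finrank ℂ (spaceS N) + nuTwo N = dedekindPsi N := by exact_mod_cast hS
  have e2 : (3 : ℚ) * Module.finrank ℂ (spaceR N) + 2 * nuThree N = 2 * dedekindPsi N := by
    exact_mod_cast hR
  have e3 : (Module.finrank ℂ (LinearMap.range (cuspPairing N)).dualCoannihilator : ℚ) + cuspCount N
      ≤ Module.finrank ℂ (spaceS N) + Module.finrank ℂ (spaceR N) + 1 := by exact_mod_cast hnat
  linarith

/-- Parabolic homomorphisms have dimension at most twice the genus. -/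
theorem finrank_parabolicHoms_le (N : ℕ) [NeZero N] :
    FiniteDimensional ℂ (parabolicHoms ℂ (Gamma0 N) ℂ) ∧
      (Module.finrank ℂ (parabolicHoms ℂ (Gamma0 N) ℂ) : ℚ) ≤ 2 * genusFormula N := by
  classical
  have hinj := cocycleMap_injective N
  have hfd : FiniteDimensional ℂ (parabolicHoms ℂ (Gamma0 N) ℂ × gaugeSpace N) :=
    FiniteDimensional.of_injective (cocycleMap N) hinj
  have hfd' : FiniteDimensional ℂ (parabolicHoms ℂ (Gamma0 N) ℂ) :=
    FiniteDimensional.of_injective
      (LinearMap.inl ℂ (parabolicHoms ℂ (Gamma0 N) ℂ) (gaugeSpace N)) LinearMap.inl_injective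
  refine ⟨hfd', ?_⟩
  have hdim := Submodule.finrank_mono (range_cocycleMap_le N)
  rw [LinearMap.finrank_range_of_inj hinj, Module.finrank_prod] at hdim
  have hdim' : (Module.finrank ℂ (parabolicHoms ℂ (Gamma0 N) ℂ) : ℚ) +
    Module.finrank ℂ (gaugeSpace N)
      ≤ Module.finrank ℂ (LinearMap.range
        (cuspPairing N)).dualCoannihilator := by exact_mod_cast hdim
  have hg : (Module.finrank ℂ (gaugeSpace N) : ℚ) + 1 = dedekindPsi N := by
    exact_mod_cast finrank_gaugeSpace N
  have := finrank_cuspConditions_le N
  linarith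

/-- The Eichler–Shimura isomorphism, given that the cusp forms have dimension at least the genus. -/
theorem periodHomPair_eichlerShimura (N : ℕ) [NeZero N]
    (hdim : genusFormula N ≤ (Module.finrank ℂ (CuspForm (Gamma0 N) 2) : ℚ)) :
    Function.Injective (periodHomPair N) ∧
      LinearMap.range (periodHomPair N) = parabolicHoms ℂ (Gamma0 N) ℂ := by
  refine ⟨periodHomPair_injective N, ?_⟩
  obtain ⟨hfd, hle⟩ := finrank_parabolicHoms_le N
  have hfdR : FiniteDimensional ℂ (LinearMap.range (periodHomPair N)) :=
    Submodule.finiteDimensional_of_le (range_periodHomPair_le N)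
  have hfdP : FiniteDimensional ℂ (CuspForm (Gamma0 N) 2 × CuspForm (Gamma0 N) 2) :=
    FiniteDimensional.of_injective (periodHomPair N).rangeRestrict fun a b h =>
      periodHomPair_injective N (congrArg Subtype.val h)
  have hfdC : FiniteDimensional ℂ (CuspForm (Gamma0 N) 2) :=
    FiniteDimensional.of_injective
      (LinearMap.inl ℂ (CuspForm (Gamma0 N) 2) (CuspForm (Gamma0 N) 2)) LinearMap.inl_injective
  refine Submodule.eq_of_le_of_finrank_le (range_periodHomPair_le N) ?_
  rw [LinearMap.finrank_range_of_inj (periodHomPair_injective N), Module.finrank_prod]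
  have : (Module.finrank ℂ (parabolicHoms ℂ (Gamma0 N) ℂ) : ℚ) ≤
      ((Module.finrank ℂ (CuspForm (Gamma0 N) 2) + Module.finrank ℂ (CuspForm (Gamma0 N) 2) : ℕ)
        : ℚ) := by
    push_cast
    linarith
  exact_mod_cast this

/-- Given that dimension bound, every pair of generator values meeting the cusp conditions is the
cocycle of a parabolic homomorphism and a gauge. -/
theorem range_cocycleMap_eq (N : ℕ) [NeZero N]
    (hdim : genusFormula N ≤ (Module.finrank ℂ (CuspForm (Gamma0 N) 2) : ℚ)) :
    LinearMap.range (cocycleMap N) = (LinearMap.range (cuspPairing N)).dualCoannihilator := by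
  obtain ⟨hES1, hES2⟩ := periodHomPair_eichlerShimura N hdim
  obtain ⟨hfd, -⟩ := finrank_parabolicHoms_le N
  have := hfd
  have hfdP : FiniteDimensional ℂ (CuspForm (Gamma0 N) 2 × CuspForm (Gamma0 N) 2) :=
    FiniteDimensional.of_injective
      ((periodHomPair N).codRestrict (parabolicHoms ℂ (Gamma0 N) ℂ)
        (fun x => hES2 ▸ LinearMap.mem_range_self _ x))
      fun a b h => hES1 (congrArg Subtype.val h)
  have hfdC : FiniteDimensional ℂ (CuspForm (Gamma0 N) 2) :=
    FiniteDimensional.of_injective
      (LinearMap.inl ℂ (CuspForm (Gamma0 N) 2) (CuspForm (Gamma0 N) 2)) LinearMap.inl_injective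
  refine Submodule.eq_of_le_of_finrank_le (range_cocycleMap_le N) ?_
  rw [LinearMap.finrank_range_of_inj (cocycleMap_injective N), Module.finrank_prod]
  have h2 : Module.finrank ℂ (parabolicHoms ℂ (Gamma0 N) ℂ)
      = Module.finrank ℂ (CuspForm (Gamma0 N) 2) + Module.finrank ℂ (CuspForm (Gamma0 N) 2) := by
    rw [← hES2, LinearMap.finrank_range_of_inj hES1, Module.finrank_prod]
  have hg : (Module.finrank ℂ (gaugeSpace N) : ℚ) + 1 = dedekindPsi N := by
    exact_mod_cast finrank_gaugeSpace N
  have := finrank_cuspConditions_le N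
  have h3 : (Module.finrank ℂ (LinearMap.range (cuspPairing N)).dualCoannihilator : ℚ)
      ≤ ((Module.finrank ℂ (parabolicHoms ℂ (Gamma0 N) ℂ) + Module.finrank ℂ
        (gaugeSpace N) : ℕ) : ℚ) := by
    rw [h2]; push_cast; linarith
  exact_mod_cast h3

end Fermat.MF
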