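import Mathlib.NumberTheory.ModularForms.QExpansion
import Mathlib.NumberTheory.ModularForms.CongruenceSubgroups
import Fermat.Prelude.Thm_ModularForm_sturm_bound_Gamma0
import Fermat.Prelude.Thm_CongruenceSubgroup_one_mem_strictPeriods_Gamma0
import Fermat.Agent.MF.DedekindPsi

/-!
# Vanishing of weight two cusp forms of levels one and two

`cuspForm_two_eq_zero_of_index_le`, from the Sturm bound and the index of `DedekindPsi`: S07, S08,
and the small primes of `Eisen/Upper`.
-/

namespace Fermat.MF

open CongruenceSubgroup UpperHalfPlane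
open scoped MatrixGroups

/-- `Γ₀(1)` has index one. -/
theorem index_Gamma0_one : (Gamma0 1).index = 1 := by
  rw [index_Gamma0, ModularCurve.dedekindPsi_one]

/-- `Γ₀(2)` has index at most four. -/
theorem index_Gamma0_two_le : (Gamma0 2).index ≤ 4 := by
  have h := dedekindPsi_prime_pow Nat.prime_two 0
  norm_num at h
  rw [index_Gamma0, h]
  norm_num

/-- The Sturm bound kills a weight two cusp form of index at most five. -/
theorem cuspForm_two_eq_zero_of_index_le (N : ℕ) [NeZero N] (hN : (Gamma0 N).index ≤ 5)
    (f : CuspForm (Gamma0 N) 2) : f = 0 := by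
  let g : ModularForm (Gamma0 N) 2 :=
    ⟨f.toSlashInvariantForm, f.holo', fun hc γ hγ => (f.zero_at_cusps' hc γ hγ).isBoundedAtImInfty⟩
  have hg : g = 0 := by
    refine ModularForm.sturm_bound_Gamma0 N g fun n hn => ?_
    have : n = 0 := by
      have : ((2 : ℤ) * (Gamma0 N).index).toNat / 12 = 0 := by
        apply Nat.div_eq_of_lt; omega
      omega
    subst this
    rw [qExpansion_coeff_zero one_pos]
    · exact (CuspFormClass.zero_at_infty f).valueAtInfty_eq_zero
    · exact ModularFormClass.analyticAt_cuspFunction_zero g one_pos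
        (CongruenceSubgroup.one_mem_strictPeriods_Gamma0 N)
    · exact SlashInvariantFormClass.periodic_comp_ofComplex g
        (CongruenceSubgroup.one_mem_strictPeriods_Gamma0 N)
  ext τ
  have := DFunLike.congr_fun hg τ
  exact this

end Fermat.MF
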