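import Fermat.Agent.MF.Cosets
import Mathlib.NumberTheory.ArithmeticFunction.Misc
import Mathlib.GroupTheory.GroupAction.Quotient
import Mathlib.RingTheory.Int.Basic
import Mathlib.Data.ZMod.Units

/-!
# Counting the cosets of `Γ₀(N)` and the orbits of `T`

`card_cuspOrbits` and `card_cosetX_eq_sum`; `DedekindPsi` sums the latter to the index, and the
genus formula of `MC/X0` uses both.
-/

namespace Fermat.MF

open ModularGroup
open scoped MatrixGroups

/-- A member of a progression is prime to `d` when no prime common to `a` and `M` divides `d`. -/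
theorem exists_add_mul_isCoprime {a M d : ℤ} (hd : d ≠ 0)
    (h : ∀ p : ℕ, p.Prime → (p : ℤ) ∣ a → (p : ℤ) ∣ M → ¬(p : ℤ) ∣ d) :
    ∃ k : ℤ, IsCoprime (a + k * M) d := by
  classical
  set ps : Finset ℕ := d.natAbs.primeFactors.filter (fun p => ¬(p : ℤ) ∣ a) with hps
  refine ⟨((∏ p ∈ ps, p : ℕ) : ℤ), ?_⟩
  rw [Int.isCoprime_iff_nat_coprime]
  refine Nat.coprime_of_dvd fun p pp hp hpd => ?_
  have hp' : (p : ℤ) ∣ a + ((∏ q ∈ ps, q : ℕ) : ℤ) * M := Int.natCast_dvd.mpr hp
  have hpd' : (p : ℤ) ∣ d := Int.natCast_dvd.mpr hpd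
  by_cases hpa : (p : ℤ) ∣ a
  · have h1 : (p : ℤ) ∣ ((∏ q ∈ ps, q : ℕ) : ℤ) * M := (dvd_add_right hpa).mp hp'
    rcases (Nat.prime_iff_prime_int.mp pp).dvd_or_dvd h1 with h2 | h2
    · rw [Int.natCast_dvd_natCast] at h2
      obtain ⟨q, hq, hpq⟩ := (Nat.prime_iff.mp pp).exists_mem_finset_dvd h2
      rw [hps, Finset.mem_filter] at hq
      obtain rfl := (Nat.prime_dvd_prime_iff_eq pp (Nat.prime_of_mem_primeFactors hq.1)).mp hpq
      exact hq.2 hpa
    · exact h p pp hpa h2 hpd'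
  · have hmem : p ∈ ps := by
      rw [hps, Finset.mem_filter]
      exact ⟨Nat.mem_primeFactors.mpr ⟨pp, hpd, Int.natAbs_ne_zero.mpr hd⟩, hpa⟩
    have h1 : (p : ℤ) ∣ ((∏ q ∈ ps, q : ℕ) : ℤ) :=
      Int.natCast_dvd_natCast.mpr (Finset.dvd_prod_of_mem _ hmem)
    exact hpa ((dvd_add_left (dvd_mul_of_dvd_left h1 M)).mp hp')

/-- The gcd attached to a divisor of the level. -/
abbrev cuspGcd (N : ℕ) (d : N.divisors) : ℕ := Nat.gcd (d : ℕ) (N / d)

/-- Residues modulo `N / d` which are units modulo `gcd d (N / d)`. -/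
abbrev CosetFiber (N : ℕ) (d : N.divisors) : Type :=
  {a : ZMod (N / d) //
    IsUnit (ZMod.castHom (Nat.gcd_dvd_right (d : ℕ) (N / d)) (ZMod (cuspGcd N d)) a)}

/-- The parameter space for the cosets of `Γ₀(N)`. -/
abbrev CosetParam (N : ℕ) : Type := Σ d : N.divisors, CosetFiber N d

variable {N : ℕ} [NeZero N]

omit [NeZero N] in
/-- A divisor of `N` is positive. -/
theorem divisor_pos (d : N.divisors) : 0 < (d : ℕ) := Nat.pos_of_mem_divisors d.2

omit [NeZero N] in
/-- A member of `N.divisors` divides `N`. -/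
theorem divisor_dvd (d : N.divisors) : (d : ℕ) ∣ N := Nat.dvd_of_mem_divisors d.2

/-- `N / d` is positive. -/
theorem codivisor_pos (d : N.divisors) : 0 < N / d :=
  Nat.div_pos (Nat.le_of_dvd (NeZero.pos N) (divisor_dvd d)) (divisor_pos d)

/-- `N / d` is nonzero. -/
instance neZero_codivisor (d : N.divisors) : NeZero (N / d) := ⟨(codivisor_pos d).ne'⟩

/-- `gcd(d, N / d)` is nonzero. -/
instance neZero_cuspGcd (d : N.divisors) : NeZero (cuspGcd N d) :=
  ⟨(Nat.gcd_pos_of_pos_left _ (divisor_pos d)).ne'⟩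

omit [NeZero N] in
/-- `d (N / d) = N` in `ℤ`. -/
theorem divisor_mul (d : N.divisors) : ((d : ℕ) : ℤ) * ((N / d : ℕ) : ℤ) = N := by
  exact_mod_cast Nat.mul_div_cancel' (divisor_dvd d)

omit [NeZero N] in
/-- `N ∣ d x` iff `N / d ∣ x`. -/
theorem dvd_mul_divisor_iff (d : N.divisors) (x : ℤ) :
    (N : ℤ) ∣ ((d : ℕ) : ℤ) * x ↔ ((N / d : ℕ) : ℤ) ∣ x := by
  conv_lhs => rw [← divisor_mul d]
  exact mul_dvd_mul_iff_left (Int.natCast_ne_zero.mpr (divisor_pos d).ne')

omit [NeZero N] in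
/-- An integer gives a unit modulo `gcd(d, N / d)` iff it is prime to it. -/
theorem isUnit_castHom_intCast (d : N.divisors) (a : ℤ) :
    IsUnit (ZMod.castHom (Nat.gcd_dvd_right (d : ℕ) (N / d)) (ZMod (cuspGcd N d))
      (a : ZMod (N / d))) ↔ IsCoprime a (cuspGcd N d : ℤ) := by
  rw [map_intCast, ZMod.coe_int_isUnit_iff_isCoprime]
  exact isCoprime_comm

omit [NeZero N] in
/-- A parameter lifts to an integer prime to its divisor. -/
theorem exists_lift (x : CosetParam N) :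
    ∃ a : ℤ, IsCoprime a ((x.1 : ℕ) : ℤ) ∧ (a : ZMod (N / x.1)) = x.2.1 := by
  obtain ⟨a, ha⟩ := ZMod.intCast_surjective x.2.1
  have hu := x.2.2
  rw [← ha, isUnit_castHom_intCast] at hu
  obtain ⟨k, hk⟩ := exists_add_mul_isCoprime (M := ((N / x.1 : ℕ) : ℤ))
    (Int.natCast_ne_zero.mpr (divisor_pos x.1).ne') (fun p pp hpa hpM hpd => by
      rw [Int.natCast_dvd_natCast] at hpM hpd
      have hg : (p : ℤ) ∣ (cuspGcd N x.1 : ℤ) :=
        Int.natCast_dvd_natCast.mpr (Nat.dvd_gcd hpd hpM)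
      exact (Nat.prime_iff_prime_int.mp pp).not_isUnit (hu.isUnit_of_dvd' hpa hg))
  refine ⟨_, hk, ?_⟩
  rw [Int.cast_add, Int.cast_mul, Int.cast_natCast]
  rw [ZMod.natCast_self, mul_zero, add_zero, ha]

/-- The coset attached to a parameter. -/
noncomputable def toCoset (x : CosetParam N) : CosetX N :=
  mkX N (exists_lift x).choose (x.1 : ℕ) (exists_lift x).choose_spec.1

omit [NeZero N] in
/-- `toCoset` may be computed with any lift prime to the divisor. -/
theorem toCoset_eq (x : CosetParam N) {a : ℤ} (h : IsCoprime a ((x.1 : ℕ) : ℤ))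
    (ha : (a : ZMod (N / x.1)) = x.2.1) : toCoset x = mkX N a (x.1 : ℕ) h := by
  rw [toCoset, mkX_eq_mkX, mul_comm _ ((x.1 : ℕ) : ℤ), ← mul_sub, dvd_mul_divisor_iff,
    ← ZMod.intCast_eq_intCast_iff_dvd_sub, ha, (exists_lift x).choose_spec.2]

omit [NeZero N] in
/-- The parametrisation of the cosets is injective. -/
theorem toCoset_injective : Function.Injective (toCoset (N := N)) := by
  rintro ⟨d, a⟩ ⟨e, b⟩ h
  obtain ⟨a₀, ha, ha'⟩ := exists_lift ⟨d, a⟩
  obtain ⟨b₀, hb, hb'⟩ := exists_lift ⟨e, b⟩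
  rw [toCoset_eq _ ha ha', toCoset_eq _ hb hb', mkX_eq_mkX] at h
  have hde : ∀ (d e : N.divisors) (a b : ℤ), IsCoprime a ((d : ℕ) : ℤ) →
      (N : ℤ) ∣ a * ((e : ℕ) : ℤ) - ((d : ℕ) : ℤ) * b → (d : ℕ) ∣ (e : ℕ) := by
    intro d e a b ha h
    have h1 : ((d : ℕ) : ℤ) ∣ a * ((e : ℕ) : ℤ) := by
      have := (dvd_trans ⟨_, (divisor_mul d).symm⟩ h : ((d : ℕ) : ℤ) ∣ _)
      exact (dvd_sub_left (dvd_mul_right _ _)).mp this
    exact Int.natCast_dvd_natCast.mp (ha.symm.dvd_of_dvd_mul_left h1)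
  obtain rfl : d = e := Subtype.ext (Nat.dvd_antisymm (hde d e a₀ b₀ ha h)
    (hde e d b₀ a₀ hb (by
      obtain ⟨t, ht⟩ := h
      exact ⟨-t, by linear_combination -ht⟩)))
  rw [mul_comm a₀, ← mul_sub, dvd_mul_divisor_iff, ← ZMod.intCast_eq_intCast_iff_dvd_sub] at h
  congr 1
  apply Subtype.ext
  exact ha'.symm.trans (h.symm.trans hb')

/-- The parametrisation of the cosets is surjective. -/
theorem toCoset_surjective : Function.Surjective (toCoset (N := N)) := by
  intro x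
  obtain ⟨a, c, h, rfl⟩ := exists_eq_mkX x
  have hN : N ≠ 0 := NeZero.ne N
  set dn := Int.gcd c N with hdn
  have hdN : dn ∣ N := Int.natCast_dvd_natCast.mp (Int.gcd_dvd_right c N)
  set d : N.divisors := ⟨dn, Nat.mem_divisors.mpr ⟨hdN, hN⟩⟩ with hd_def
  obtain ⟨u, v, huv⟩ : ∃ u v : ℤ, u * c + v * N = ((d : ℕ) : ℤ) :=
    ⟨Int.gcdA c N, Int.gcdB c N, by
      change _ = ((Int.gcd c N : ℕ) : ℤ)
      rw [Int.gcd_eq_gcd_ab]; ring⟩
  obtain ⟨w, hw⟩ : ((d : ℕ) : ℤ) ∣ c := Int.gcd_dvd_left c N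
  have hwu : u * w + v * ((N / d : ℕ) : ℤ) = 1 := by
    apply mul_left_cancel₀ (Int.natCast_ne_zero.mpr (divisor_pos d).ne')
    linear_combination huv - u * hw + v * divisor_mul d
  have hu : IsCoprime (a * u) (cuspGcd N d : ℤ) := by
    refine IsCoprime.mul_left ?_ ?_
    · refine h.of_isCoprime_of_dvd_right ?_
      exact (Int.natCast_dvd_natCast.mpr (Nat.gcd_dvd_left _ _)).trans ⟨w, hw⟩
    · exact (show IsCoprime u ((N / d : ℕ) : ℤ) from ⟨w, v, by linear_combination hwu⟩)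
        |>.of_isCoprime_of_dvd_right (Int.natCast_dvd_natCast.mpr (Nat.gcd_dvd_right _ _))
  let p : CosetParam N := ⟨d, ((a * u : ℤ) : ZMod (N / d)), (isUnit_castHom_intCast d _).mpr hu⟩
  refine ⟨p, ?_⟩
  obtain ⟨a₀, ha, ha'⟩ := exists_lift p
  rw [toCoset_eq p ha ha', mkX_eq_mkX]
  have h0 : ((a * u : ℤ) : ZMod (N / d)) = (a₀ : ZMod (N / d)) := ha'.symm
  rw [ZMod.intCast_eq_intCast_iff_dvd_sub] at h0
  obtain ⟨t, ht⟩ := h0
  obtain rfl : a₀ = a * u + ((N / d : ℕ) : ℤ) * t := by linear_combination ht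
  refine ⟨w * t - a * v * 1, ?_⟩
  change (a * u + ((N / d : ℕ) : ℤ) * t) * c - ((d : ℕ) : ℤ) * a = _
  linear_combination (a * u + ((N / d : ℕ) : ℤ) * t) * hw + a * ((d : ℕ) : ℤ) * hwu
    + (w * t - a * v) * divisor_mul d

/-- The parametrisation of the cosets of `Γ₀(N)`. -/
noncomputable def cosetEquiv (N : ℕ) [NeZero N] : CosetParam N ≃ CosetX N :=
  Equiv.ofBijective toCoset ⟨toCoset_injective, toCoset_surjective⟩

omit [NeZero N] in
/-- Adding multiples of `d` keeps a residue in its fibre. -/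
theorem isUnit_castHom_add (d : N.divisors) (k : ℤ) {a : ZMod (N / d)}
    (ha : IsUnit (ZMod.castHom (Nat.gcd_dvd_right (d : ℕ) (N / d)) (ZMod (cuspGcd N d)) a)) :
    IsUnit (ZMod.castHom (Nat.gcd_dvd_right (d : ℕ) (N / d)) (ZMod (cuspGcd N d))
      (a + k * ((d : ℕ) : ZMod (N / d)))) := by
  have : ((d : ℕ) : ZMod (cuspGcd N d)) = 0 :=
    (ZMod.natCast_eq_zero_iff _ _).mpr (Nat.gcd_dvd_left _ _)
  rwa [map_add, map_mul, map_natCast, this, mul_zero, add_zero]

omit [NeZero N] in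
/-- `T ^ k` adds `k d` to the residue of a parameter. -/
theorem T_zpow_smul_toCoset (k : ℤ) (d : N.divisors) (a : CosetFiber N d) :
    T ^ k • toCoset ⟨d, a⟩ =
      toCoset ⟨d, a.1 + k * ((d : ℕ) : ZMod (N / d)), isUnit_castHom_add d k a.2⟩ := by
  obtain ⟨a₀, ha, ha'⟩ := exists_lift ⟨d, a⟩
  rw [toCoset_eq _ ha ha', T_zpow_smul_mkX]
  symm
  refine toCoset_eq _ _ ?_
  push_cast
  exact congrArg (· + _) ha'

/-- The orbits of `T` on the cosets: the cusps. -/
abbrev CuspOrbits (N : ℕ) : Type :=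
  MulAction.orbitRel.Quotient (Subgroup.zpowers (T : SL(2, ℤ))) (CosetX N)

omit [NeZero N] in
/-- Two cosets give one cusp iff a power of `T` carries one to the other. -/
theorem cuspOrbit_eq_iff (x y : CosetX N) :
    (Quotient.mk'' x : CuspOrbits N) = Quotient.mk'' y ↔ ∃ k : ℤ, T ^ k • y = x := by
  rw [Quotient.eq'', MulAction.orbitRel_apply, MulAction.mem_orbit_iff]
  constructor
  · rintro ⟨⟨g, k, rfl⟩, hg⟩
    exact ⟨k, hg⟩
  · rintro ⟨k, hk⟩
    exact ⟨⟨T ^ k, k, rfl⟩, hk⟩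

/-- The orbits of `T` on the cosets are as many as the cusps. -/
theorem card_cuspOrbits : Nat.card (CuspOrbits N) = ModularCurve.cuspCount N := by
  classical
  have hsurj : ∀ d : N.divisors, ∀ u : (ZMod (cuspGcd N d))ˣ, ∃ a : CosetFiber N d,
      ZMod.castHom (Nat.gcd_dvd_right (d : ℕ) (N / d)) (ZMod (cuspGcd N d)) a.1 = u := by
    intro d u
    obtain ⟨a, ha⟩ := ZMod.castHom_surjective (Nat.gcd_dvd_right (d : ℕ) (N / d))
      (u : ZMod (cuspGcd N d))
    exact ⟨⟨a, by rw [ha]; exact u.isUnit⟩, ha⟩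
  choose lift hlift using hsurj
  -- an orbit is a divisor `d` and a unit modulo `gcd (d, N / d)`
  let f : (Σ d : N.divisors, (ZMod (cuspGcd N d))ˣ) → CuspOrbits N :=
    fun p => Quotient.mk'' (toCoset ⟨p.1, lift p.1 p.2⟩)
  have hf : Function.Bijective f := by
    constructor
    -- the translations do not change the unit
    · rintro ⟨d, u⟩ ⟨e, v⟩ h
      obtain ⟨k, hk⟩ := (cuspOrbit_eq_iff _ _).mp h
      rw [T_zpow_smul_toCoset] at hk
      have h2 := toCoset_injective hk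
      obtain ⟨rfl, h3⟩ := Sigma.mk.inj_iff.mp h2
      have h4 := congrArg (fun a : CosetFiber N e =>
        ZMod.castHom (Nat.gcd_dvd_right (e : ℕ) (N / e)) (ZMod (cuspGcd N e)) a.1) (eq_of_heq h3)
      simp only [map_add, map_mul, map_natCast, hlift,
        (ZMod.natCast_eq_zero_iff _ _).mpr (Nat.gcd_dvd_left (e : ℕ) (N / e)),
        mul_zero, add_zero] at h4
      rw [Units.ext h4.symm]
    · intro o
      induction o using Quotient.inductionOn' with
      | h x =>
        obtain ⟨⟨d, a⟩, rfl⟩ := toCoset_surjective x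
        refine ⟨⟨d, a.2.unit⟩, ?_⟩
        set b := lift d a.2.unit
        have hb : ZMod.castHom (Nat.gcd_dvd_right (d : ℕ) (N / d)) (ZMod (cuspGcd N d)) b.1
            = ZMod.castHom (Nat.gcd_dvd_right (d : ℕ) (N / d)) (ZMod (cuspGcd N d)) a.1 :=
          (hlift d a.2.unit).trans a.2.unit_spec
        obtain ⟨A, hA⟩ := ZMod.intCast_surjective a.1
        obtain ⟨B, hB⟩ := ZMod.intCast_surjective b.1
        rw [← hA, ← hB, map_intCast, map_intCast, ZMod.intCast_eq_intCast_iff_dvd_sub] at hb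
        obtain ⟨t, ht⟩ := hb
        -- Bezout realises any multiple of the gcd by a translation
        have hbez : (cuspGcd N d : ℤ) = ((d : ℕ) : ℤ) * Nat.gcdA (d : ℕ) (N / d)
            + ((N / d : ℕ) : ℤ) * Nat.gcdB (d : ℕ) (N / d) := Nat.gcd_eq_gcd_ab _ _
        refine (cuspOrbit_eq_iff _ _).mpr ⟨-t * Nat.gcdA (d : ℕ) (N / d), ?_⟩
        rw [T_zpow_smul_toCoset]
        refine congrArg toCoset (Sigma.ext rfl (heq_of_eq (Subtype.ext ?_)))
        change a.1 + _ = b.1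
        rw [← hA, ← hB]
        have e : B = A + (-t * Nat.gcdA (d : ℕ) (N / d)) * ((d : ℕ) : ℤ)
            + ((N / d : ℕ) : ℤ) * (-t * Nat.gcdB (d : ℕ) (N / d)) := by
          linear_combination -ht - t * hbez
        rw [e]
        simp only [Int.cast_add, Int.cast_mul, Int.cast_natCast]
        rw [ZMod.natCast_self, zero_mul, add_zero]
  rw [← Nat.card_eq_of_bijective f hf, Nat.card_eq_fintype_card, Fintype.card_sigma,
    ModularCurve.cuspCount, ← Finset.sum_coe_sort N.divisors]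
  exact Finset.sum_congr rfl fun d _ => ZMod.card_units_eq_totient _

/-- The cosets above a divisor are counted by `N / d` and the totient. -/
theorem card_cosetFiber (d : N.divisors) :
    Nat.card (CosetFiber N d) * cuspGcd N d = N / d * Nat.totient (cuspGcd N d) := by
  classical
  set f := (ZMod.castHom (Nat.gcd_dvd_right (d : ℕ) (N / d)) (ZMod (cuspGcd N d))).toAddMonoidHom
    with hf
  have hsurj : Function.Surjective f := ZMod.castHom_surjective (Nat.gcd_dvd_right (d : ℕ) (N / d))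
  have hker : ∀ y : ZMod (cuspGcd N d), Nat.card {a // f a = y} = Nat.card f.ker := by
    intro y
    obtain ⟨a₀, rfl⟩ := hsurj y
    refine (Nat.card_congr (Equiv.subtypeEquiv (Equiv.addRight a₀) fun a => ?_)).symm
    simp [AddMonoidHom.mem_ker]
  have h1 : Nat.card (ZMod (N / d)) = cuspGcd N d * Nat.card f.ker := by
    rw [← Nat.card_congr (Equiv.sigmaFiberEquiv f), Nat.card_sigma]
    simp only [hker, Finset.sum_const, Finset.card_univ, smul_eq_mul]
    rw [ZMod.card]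
  have h2 : Nat.card (CosetFiber N d) = Nat.totient (cuspGcd N d) * Nat.card f.ker := by
    let e : CosetFiber N d ≃ Σ u : (ZMod (cuspGcd N d))ˣ, {a // f a = (u : ZMod _)} :=
      { toFun := fun a => ⟨a.2.unit, a.1, a.2.unit_spec.symm⟩
        invFun := fun p => ⟨p.2.1, by
          change IsUnit (f p.2.1)
          rw [p.2.2]; exact p.1.isUnit⟩
        left_inv := fun a => rfl
        right_inv := by
          rintro ⟨u, a, ha⟩
          refine Sigma.subtype_ext ?_ rfl
          exact Units.ext ((IsUnit.unit_spec _).trans ha) }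
    rw [Nat.card_congr e, Nat.card_sigma]
    simp only [hker, Finset.sum_const, Finset.card_univ, smul_eq_mul]
    rw [ZMod.card_units_eq_totient]
  rw [Nat.card_zmod] at h1
  rw [h2]
  calc Nat.totient (cuspGcd N d) * Nat.card f.ker * cuspGcd N d
      = (cuspGcd N d * Nat.card f.ker) * Nat.totient (cuspGcd N d) := by ring
    _ = N / d * Nat.totient (cuspGcd N d) := by rw [← h1]

/-- The number of cosets as a sum over the divisors of `N`. -/
theorem card_cosetX_eq_sum :
    Nat.card (CosetX N) =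
      ∑ d ∈ N.divisors, N / d / Nat.gcd d (N / d) * Nat.totient (Nat.gcd d (N / d)) := by
  classical
  rw [← Nat.card_congr (cosetEquiv N), Nat.card_sigma, ← Finset.sum_coe_sort N.divisors]
  refine Finset.sum_congr rfl fun d _ => ?_
  apply Nat.eq_of_mul_eq_mul_right (Nat.pos_of_ne_zero (NeZero.ne (cuspGcd N d)))
  rw [card_cosetFiber, mul_right_comm, Nat.div_mul_cancel (Nat.gcd_dvd_right _ _)]

end Fermat.MF
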