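import Mathlib.NumberTheory.ModularForms.CongruenceSubgroups
import Mathlib.NumberTheory.Modular
import Mathlib.RingTheory.Coprime.Lemmas
import Fermat.Prelude.Def_ModularCurve_GenusNumerics

/-!
# The coset space `SL(2, ℤ) ⧸ Γ₀(N)`

Cosets are described by the first column of a representative: `mkX a c`. We count the fixed points
of `S` and `S * T`.
-/

namespace Fermat.MF

open CongruenceSubgroup ModularGroup
open scoped MatrixGroups

/-- The left cosets of `Γ₀(N)` in `SL(2, ℤ)`. -/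
abbrev CosetX (N : ℕ) : Type := SL(2, ℤ) ⧸ Gamma0 N

/-- Two matrices define one coset iff their first columns are proportional modulo `N`. -/
theorem mk_eq_mk_iff {N : ℕ} (g h : SL(2, ℤ)) :
    (QuotientGroup.mk g : CosetX N) = QuotientGroup.mk h ↔
      (N : ℤ) ∣ g 0 0 * h 1 0 - g 1 0 * h 0 0 := by
  rw [QuotientGroup.eq, Gamma0_mem, ZMod.intCast_zmod_eq_zero_iff_dvd,
    Matrix.SpecialLinearGroup.coe_mul, Matrix.SpecialLinearGroup.coe_inv, Matrix.adjugate_fin_two]
  simp [Matrix.mul_apply, Fin.sum_univ_two]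
  ring_nf

/-- The coset with a representative of first column `(a, c)`. -/
noncomputable def mkX (N : ℕ) (a c : ℤ) (h : IsCoprime a c) : CosetX N :=
  QuotientGroup.mk (h.exists_SL2_col 0).choose

variable {N : ℕ}

/-- When `mkX a c` is the coset of `g`. -/
theorem mkX_eq_mk {a c : ℤ} (h : IsCoprime a c) (g : SL(2, ℤ)) :
    mkX N a c h = QuotientGroup.mk g ↔ (N : ℤ) ∣ a * g 1 0 - c * g 0 0 := by
  rw [mkX, mk_eq_mk_iff, (h.exists_SL2_col 0).choose_spec.1, (h.exists_SL2_col 0).choose_spec.2]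

/-- When two cosets given by columns coincide. -/
theorem mkX_eq_mkX {a c a' c' : ℤ} (h : IsCoprime a c) (h' : IsCoprime a' c') :
    mkX N a c h = mkX N a' c' h' ↔ (N : ℤ) ∣ a * c' - c * a' := by
  conv_lhs => rhs; rw [mkX]
  rw [mkX_eq_mk, (h'.exists_SL2_col 0).choose_spec.1, (h'.exists_SL2_col 0).choose_spec.2]

/-- Every coset is given by a column. -/
theorem exists_eq_mkX (x : CosetX N) : ∃ (a c : ℤ) (h : IsCoprime a c), x = mkX N a c h := by
  induction x using QuotientGroup.induction_on with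
  | H g =>
    refine ⟨_, _, g.isCoprime_col 0, ((mkX_eq_mk _ g).mpr ?_).symm⟩
    rw [mul_comm (g 1 0), sub_self]
    exact dvd_zero _

/-- The action of a matrix on the columns. -/
theorem smul_mkX (g : SL(2, ℤ)) {a c : ℤ} (h : IsCoprime a c)
    (h' : IsCoprime (g 0 0 * a + g 0 1 * c) (g 1 0 * a + g 1 1 * c)) :
    g • mkX N a c h = mkX N (g 0 0 * a + g 0 1 * c) (g 1 0 * a + g 1 1 * c) h' := by
  refine ((mkX_eq_mk h' (g * (h.exists_SL2_col 0).choose)).mpr ?_).symm
  simp [Matrix.SpecialLinearGroup.coe_mul, Matrix.mul_apply, Fin.sum_univ_two,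
    (h.exists_SL2_col 0).choose_spec.1, (h.exists_SL2_col 0).choose_spec.2]
  rw [mul_comm]; simp

/-- `T ^ k` sends `(a, c)` to `(a + k c, c)`. -/
theorem T_zpow_smul_mkX (k : ℤ) {a c : ℤ} (h : IsCoprime a c) :
    T ^ k • mkX N a c h = mkX N (a + k * c) c (h.add_mul_right_left k) := by
  rw [smul_mkX _ h (by simpa [coe_T_zpow] using h.add_mul_right_left k), mkX_eq_mkX]
  simp [coe_T_zpow]
  ring_nf
  simp

/-- `S` sends `(a, c)` to `(-c, a)`. -/
theorem S_smul_mkX {a c : ℤ} (h : IsCoprime a c) :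
    S • mkX N a c h = mkX N (-c) a h.symm.neg_left := by
  rw [smul_mkX _ h (by simpa [coe_S] using h.symm.neg_left), mkX_eq_mkX]
  simp [coe_S]
  ring_nf
  simp

/-- `S T` sends `(a, c)` to `(-c, a + c)`. -/
theorem ST_smul_mkX {a c : ℤ} (h : IsCoprime a c) :
    (S * T) • mkX N a c h = mkX N (-c) (a + c) (by
      simpa using (h.add_mul_right_left 1).symm.neg_left) := by
  have hT := T_zpow_smul_mkX (N := N) 1 h
  rw [zpow_one] at hT
  rw [mul_smul, hT, S_smul_mkX, mkX_eq_mkX]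
  ring_nf
  simp

/-- `S` fixes `(a, c)` iff `N ∣ a² + c²`. -/
theorem S_fixed_iff {a c : ℤ} (h : IsCoprime a c) :
    S • mkX N a c h = mkX N a c h ↔ (N : ℤ) ∣ a ^ 2 + c ^ 2 := by
  rw [S_smul_mkX, mkX_eq_mkX, ← Int.dvd_neg]
  ring_nf

/-- `S T` fixes `(a, c)` iff `N ∣ a² + a c + c²`. -/
theorem ST_fixed_iff {a c : ℤ} (h : IsCoprime a c) :
    (S * T) • mkX N a c h = mkX N a c h ↔ (N : ℤ) ∣ a ^ 2 + a * c + c ^ 2 := by
  rw [ST_smul_mkX, mkX_eq_mkX, ← Int.dvd_neg]
  ring_nf

/-- When the coset of `(x, 1)` is that of `(a, c)`. -/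
theorem mkX_one_eq_iff {x a c : ℤ} (h : IsCoprime a c) :
    mkX N x 1 isCoprime_one_right = mkX N a c h ↔ ((x : ZMod N) * c = a) := by
  rw [mkX_eq_mkX, ← ZMod.intCast_zmod_eq_zero_iff_dvd]
  push_cast
  rw [sub_eq_zero, one_mul]

variable [NeZero N]

/-- The fixed points of `S` number `nuTwo`. -/
theorem card_fixed_S : Nat.card {x : CosetX N // S • x = x} = ModularCurve.nuTwo N := by
  rw [ModularCurve.nuTwo]
  symm
  refine Nat.card_eq_of_bijective (fun x => ⟨mkX N x.1.val 1 isCoprime_one_right, ?_⟩) ⟨?_, ?_⟩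
  · rw [S_fixed_iff, ← ZMod.intCast_zmod_eq_zero_iff_dvd]
    push_cast
    simpa using x.2
  · intro x y hxy
    have := (mkX_one_eq_iff isCoprime_one_right).mp (congrArg Subtype.val hxy)
    apply Subtype.ext
    simpa using this
  · rintro ⟨x, hx⟩
    obtain ⟨a, c, h, rfl⟩ := exists_eq_mkX x
    have hx' := (ZMod.intCast_zmod_eq_zero_iff_dvd _ N).mpr ((S_fixed_iff h).mp hx)
    push_cast at hx'
    obtain ⟨u, v, huv⟩ := id h
    have huv' : (u : ZMod N) * a + v * c = 1 := by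
      exact_mod_cast congrArg (Int.cast : ℤ → ZMod N) huv
    set w : ZMod N := 2 * v - v ^ 2 * c - u ^ 2 * c with hw
    have hcw : (c : ZMod N) * w = 1 := by
      rw [hw]
      linear_combination (u * a + 1 - v * c) * huv' - (u : ZMod N) ^ 2 * hx'
    refine ⟨⟨a * w, ?_⟩, Subtype.ext ((mkX_one_eq_iff h).mpr ?_)⟩
    · linear_combination w ^ 2 * hx' - (c * w + 1) * hcw
    · simp only [Int.cast_natCast, ZMod.natCast_zmod_val]
      linear_combination (a : ZMod N) * hcw

/-- The fixed points of `S T` number `nuThree`. -/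
theorem card_fixed_ST : Nat.card {x : CosetX N // (S * T) • x = x} = ModularCurve.nuThree N := by
  rw [ModularCurve.nuThree]
  symm
  refine Nat.card_eq_of_bijective (fun x => ⟨mkX N x.1.val 1 isCoprime_one_right, ?_⟩) ⟨?_, ?_⟩
  · rw [ST_fixed_iff, ← ZMod.intCast_zmod_eq_zero_iff_dvd]
    push_cast
    simpa using x.2
  · intro x y hxy
    have := (mkX_one_eq_iff isCoprime_one_right).mp (congrArg Subtype.val hxy)
    apply Subtype.ext
    simpa using this
  · rintro ⟨x, hx⟩
    obtain ⟨a, c, h, rfl⟩ := exists_eq_mkX x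
    have hx' := (ZMod.intCast_zmod_eq_zero_iff_dvd _ N).mpr ((ST_fixed_iff h).mp hx)
    push_cast at hx'
    obtain ⟨u, v, huv⟩ := id h
    have huv' : (u : ZMod N) * a + v * c = 1 := by
      exact_mod_cast congrArg (Int.cast : ℤ → ZMod N) huv
    set w : ZMod N := 2 * v - v ^ 2 * c - u ^ 2 * (a + c) with hw
    have hcw : (c : ZMod N) * w = 1 := by
      rw [hw]
      linear_combination (u * a + 1 - v * c) * huv' - (u : ZMod N) ^ 2 * hx'
    refine ⟨⟨a * w, ?_⟩, Subtype.ext ((mkX_one_eq_iff h).mpr ?_)⟩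
    · linear_combination w ^ 2 * hx' - (c * w + 1 + a * w) * hcw
    · simp only [Int.cast_natCast, ZMod.natCast_zmod_val]
      linear_combination (a : ZMod N) * hcw

end Fermat.MF
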